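import Mathlib

/-!
# ML / At2 / Loc / Alg : the `2 × 2` algebra at the prime `2`   ([L2-MIN2], Mathlib only)

`R` is ANY commutative ring, `Ph Tu : M₂ R` with `Ph * Tu = Tu * Tu * Ph` (`Φ τ Φ⁻¹ = τ²`), `det Tu = 1`, `det Ph = 2`.
`t = tr Tu`, `z = t - 2`, `s = tr Ph`, `N = Tu - 1`.
-/

set_option autoImplicit false

namespace Fermat.Agent.ML.At2.Loc

open Matrix

variable {R : Type*} [CommRing R]

local notation "M₂" => Matrix (Fin 2) (Fin 2)

/-- Cayley-Hamilton for `2 × 2` matrices. -/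
theorem cayley2 (A : M₂ R) : A * A = A.trace • A - A.det • (1 : M₂ R) := by
  ext i j
  fin_cases i <;> fin_cases j <;>
    simp [Matrix.mul_apply, Fin.sum_univ_two, Matrix.trace_fin_two, Matrix.det_fin_two] <;> ring

/-- **the scaling identity.**  If `Φ Y = c Y Φ` then `δ (1 - c) (s² c - δ (1 + c)²) Y = 0` (`s = tr Φ`, `δ = det Φ`). -/
theorem scale_identity (Ph Y : M₂ R) (c : R) (h : Ph * Y = c • (Y * Ph)) :
    (Ph.det * ((1 - c) * (Ph.trace ^ 2 * c - Ph.det * (1 + c) ^ 2))) • Y = 0 := by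
  set s := Ph.trace with hs
  set δ := Ph.det with hδ
  set P := Y * Ph with hP
  have hCH : Ph * Ph = s • Ph - δ • (1 : M₂ R) := cayley2 Ph
  have h2 : P * Ph = s • P - δ • Y := by
    rw [hP, mul_assoc, hCH, mul_sub, mul_smul_comm, mul_smul_comm, mul_one]
  have h3 : Ph * P = c • (s • P - δ • Y) := by
    rw [hP, ← mul_assoc, h, smul_mul_assoc, ← hP, h2]
  have h4 : Ph * (Ph * Y) = (s * c) • P - δ • Y := by
    rw [← mul_assoc, hCH, sub_mul, smul_mul_assoc, smul_mul_assoc, one_mul, h, smul_smul]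
  have h5 : Ph * (Ph * Y) = c • (c • (s • P - δ • Y)) := by
    rw [h, mul_smul_comm, h3]
  -- [A]
  have hA : (s * c) • P - δ • Y = c • (c • (s • P - δ • Y)) := h4.symm.trans h5
  -- [A] * Φ
  have hA' : (s * c) • (s • P - δ • Y) - δ • P = c • (c • (s • (s • P - δ • Y) - δ • P)) := by
    have := congrArg (· * Ph) hA
    simp only [sub_mul, smul_mul_assoc, h2, ← hP] at this
    exact this
  linear_combination (norm := module) (-(s * c * s - δ * (1 + c))) • hA + (s * c) • hA'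

/-! ### the relation `Φ τ = τ² Φ` -/

section Two

variable {Ph Tu : M₂ R}

theorem sq_eq (hT : Tu.det = 1) : Tu * Tu = Tu.trace • Tu - 1 := by
  rw [cayley2, hT, one_smul]

/-- `N² = z τ`. -/
theorem N_mul_N (hT : Tu.det = 1) : (Tu - 1) * (Tu - 1) = (Tu.trace - 2) • Tu := by
  rw [sub_mul, mul_sub, one_mul, mul_one, sq_eq hT]
  module

/-- `Φ τ = t τ Φ - Φ`. -/
theorem Ph_mul_Tu (hrel : Ph * Tu = Tu * Tu * Ph) (hT : Tu.det = 1) :
    Ph * Tu = Tu.trace • (Tu * Ph) - Ph := by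
  rw [hrel, sq_eq hT, sub_mul, smul_mul_assoc, one_mul]

/-- `tr Φ = (t - 1) tr (τ Φ)`. -/
theorem tr_Ph_eq (hrel : Ph * Tu = Tu * Tu * Ph) (hT : Tu.det = 1) :
    Ph.trace = (Tu.trace - 1) * (Tu * Ph).trace := by
  have h := congrArg Matrix.trace (Ph_mul_Tu hrel hT)
  rw [Matrix.trace_mul_comm, Matrix.trace_sub, Matrix.trace_smul, smul_eq_mul] at h
  linear_combination h

/-- `z tr (τ Φ) = 0`. -/
theorem z_mul_tr_mul (hrel : Ph * Tu = Tu * Tu * Ph) (hT : Tu.det = 1) :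
    (Tu.trace - 2) * (Tu * Ph).trace = 0 := by
  have h1 : Tu * (Ph * Tu) = Tu.trace • (Tu.trace • (Tu * Ph) - Ph) - Tu * Ph := by
    rw [Ph_mul_Tu hrel hT, mul_sub, mul_smul_comm, ← mul_assoc, sq_eq hT, sub_mul, smul_mul_assoc,
      one_mul]
  have h2 : (Tu * (Ph * Tu)).trace = Tu.trace * (Tu * Ph).trace - Ph.trace := by
    rw [Matrix.trace_mul_comm, mul_assoc, sq_eq hT, mul_sub, mul_smul_comm, mul_one,
      Matrix.trace_sub, Matrix.trace_smul, smul_eq_mul, Matrix.trace_mul_comm Ph Tu]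
  have h3 := congrArg Matrix.trace h1
  rw [h2, Matrix.trace_sub, Matrix.trace_smul, Matrix.trace_sub, Matrix.trace_smul, smul_eq_mul,
    smul_eq_mul] at h3
  have h4 := tr_Ph_eq hrel hT
  linear_combination -h3 + (Tu.trace - 1) * h4

/-- `z tr Φ = 0`. -/
theorem z_mul_tr (hrel : Ph * Tu = Tu * Tu * Ph) (hT : Tu.det = 1) :
    (Tu.trace - 2) * Ph.trace = 0 := by
  rw [tr_Ph_eq hrel hT]
  linear_combination (Tu.trace - 1) * z_mul_tr_mul hrel hT

/-- `det Φ * z (z + 3) = 0`. -/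
theorem det_mul_z_mul (hrel : Ph * Tu = Tu * Tu * Ph) (hT : Tu.det = 1) :
    Ph.det * ((Tu.trace - 2) * (Tu.trace + 1)) = 0 := by
  have h1 : Ph * Tu * Ph.adjugate = Ph.det • (Tu.trace • Tu - 1) := by
    rw [hrel, mul_assoc, Matrix.mul_adjugate, mul_smul_comm, mul_one, sq_eq hT]
  have h2 : (Ph * Tu * Ph.adjugate).trace = Ph.det * Tu.trace := by
    rw [Matrix.trace_mul_comm, ← mul_assoc, Matrix.adjugate_mul, smul_mul_assoc, one_mul,
      Matrix.trace_smul, smul_eq_mul]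
  have h3 := congrArg Matrix.trace h1
  rw [h2, Matrix.trace_smul, Matrix.trace_sub, Matrix.trace_smul, smul_eq_mul, smul_eq_mul,
    Matrix.trace_one, Fintype.card_fin] at h3
  push_cast at h3
  linear_combination -h3

/-- `z (z + 3) = 0`. -/
theorem z_mul_z_add_three (hrel : Ph * Tu = Tu * Tu * Ph) (hT : Tu.det = 1)
    (hP : IsUnit Ph.det) : (Tu.trace - 2) * (Tu.trace + 1) = 0 :=
  (hP.mul_right_eq_zero).1 (det_mul_z_mul hrel hT)

/-- `Φ N = z τ Φ + 2 N Φ`. -/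
theorem Ph_mul_N (hrel : Ph * Tu = Tu * Tu * Ph) (hT : Tu.det = 1) :
    Ph * (Tu - 1) = (Tu.trace - 2) • (Tu * Ph) + (2 : R) • ((Tu - 1) * Ph) := by
  rw [mul_sub, mul_one, Ph_mul_Tu hrel hT, sub_mul, one_mul]
  module

/-! #### `z = 0` -/

theorem N_mul_N_of_trace (hT : Tu.det = 1) (hz : Tu.trace = 2) : (Tu - 1) * (Tu - 1) = 0 := by
  rw [N_mul_N hT, hz, sub_self, zero_smul]

theorem Ph_mul_N_of_trace (hrel : Ph * Tu = Tu * Tu * Ph) (hT : Tu.det = 1) (hz : Tu.trace = 2) :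
    Ph * (Tu - 1) = (2 : R) • ((Tu - 1) * Ph) := by
  rw [Ph_mul_N hrel hT, hz, sub_self, zero_smul, zero_add]

/-- `(9 - (tr Φ)²) N = 0`. -/
theorem nine_sub_smul_N (hrel : Ph * Tu = Tu * Tu * Ph) (hT : Tu.det = 1) (hP : Ph.det = 2)
    (h2 : IsUnit (2 : R)) (hz : Tu.trace = 2) : (9 - Ph.trace ^ 2) • (Tu - 1) = 0 := by
  have h := scale_identity Ph (Tu - 1) 2 (Ph_mul_N_of_trace hrel hT hz)
  rw [hP] at h
  have h4 : ((2 : R) * 2) • ((9 - Ph.trace ^ 2) • (Tu - 1)) = 0 := by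
    rw [← h]
    module
  exact ((h2.mul h2).smul_eq_zero).1 h4

/-- `z = 0` and `9 - (tr Φ)²` a unit: `τ = 1`. -/
theorem eq_one_of_trace (hrel : Ph * Tu = Tu * Tu * Ph) (hT : Tu.det = 1) (hP : Ph.det = 2)
    (h2 : IsUnit (2 : R)) (hz : Tu.trace = 2) (h9 : IsUnit (9 - Ph.trace ^ 2)) : Tu = 1 :=
  sub_eq_zero.1 ((h9.smul_eq_zero).1 (nine_sub_smul_N hrel hT hP h2 hz))

/-- (3g) : `tr Φ` a unit gives `z = 0`. -/
theorem trace_eq_two_of_isUnit_trace (hrel : Ph * Tu = Tu * Tu * Ph) (hT : Tu.det = 1)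
    (hs : IsUnit Ph.trace) : Tu.trace = 2 :=
  sub_eq_zero.1 ((hs.mul_left_eq_zero).1 (z_mul_tr hrel hT))

/-- (5r), (5g), (5s) : `z + 3` a unit gives `z = 0`. -/
theorem trace_eq_two_of_isUnit_add (hrel : Ph * Tu = Tu * Tu * Ph) (hT : Tu.det = 1)
    (hP : IsUnit Ph.det) (h3 : IsUnit (Tu.trace + 1)) : Tu.trace = 2 :=
  sub_eq_zero.1 ((h3.mul_left_eq_zero).1 (z_mul_z_add_three hrel hT hP))

/-! #### the multiplier `z + 3` : `N' = (z + 3) N` -/

theorem Np_mul_Np (hrel : Ph * Tu = Tu * Tu * Ph) (hT : Tu.det = 1) (hP : IsUnit Ph.det) :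
    ((Tu.trace + 1) • (Tu - 1)) * ((Tu.trace + 1) • (Tu - 1)) = 0 := by
  rw [smul_mul_assoc, mul_smul_comm, N_mul_N hT, smul_smul, smul_smul,
    show (Tu.trace + 1) * (Tu.trace + 1) * (Tu.trace - 2)
      = (Tu.trace + 1) * ((Tu.trace - 2) * (Tu.trace + 1)) by ring,
    z_mul_z_add_three hrel hT hP, mul_zero, zero_smul]

theorem Ph_mul_Np (hrel : Ph * Tu = Tu * Tu * Ph) (hT : Tu.det = 1) (hP : IsUnit Ph.det) :
    Ph * ((Tu.trace + 1) • (Tu - 1)) = (2 : R) • (((Tu.trace + 1) • (Tu - 1)) * Ph) := by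
  rw [mul_smul_comm, Ph_mul_N hrel hT, smul_add, smul_smul, mul_comm (Tu.trace + 1),
    z_mul_z_add_three hrel hT hP, zero_smul, zero_add, smul_mul_assoc, smul_comm]

theorem nine_sub_smul_Np (hrel : Ph * Tu = Tu * Tu * Ph) (hT : Tu.det = 1) (hP : Ph.det = 2)
    (h2 : IsUnit (2 : R)) : (9 - Ph.trace ^ 2) • ((Tu.trace + 1) • (Tu - 1)) = 0 := by
  have h := scale_identity Ph _ 2 (Ph_mul_Np hrel hT (hP ▸ h2))
  rw [hP] at h
  have h4 : ((2 : R) * 2) • ((9 - Ph.trace ^ 2) • ((Tu.trace + 1) • (Tu - 1))) = 0 := by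
    rw [← h]
    module
  exact ((h2.mul h2).smul_eq_zero).1 h4

/-! #### the traceless part `T₀ = 2 τ - t` -/

theorem Ph_mul_T0 (hrel : Ph * Tu = Tu * Tu * Ph) (hT : Tu.det = 1) (hP : IsUnit Ph.det) :
    Ph * ((2 : R) • Tu - Tu.trace • (1 : M₂ R))
      = Tu.trace • (((2 : R) • Tu - Tu.trace • (1 : M₂ R)) * Ph) := by
  have hz := z_mul_z_add_three hrel hT hP
  have h0 : ((Tu.trace - 2) * (Tu.trace + 1)) • Ph = 0 := by rw [hz, zero_smul]
  rw [mul_sub, mul_smul_comm, mul_smul_comm, mul_one, Ph_mul_Tu hrel hT, sub_mul, smul_mul_assoc,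
    smul_mul_assoc, one_mul]
  linear_combination (norm := module) h0

/-- `(1 + z) (2 (9 - s²) + z (6 - s²)) T₀ = 0`. -/
theorem smul_T0_eq_zero (hrel : Ph * Tu = Tu * Tu * Ph) (hT : Tu.det = 1) (hP : Ph.det = 2)
    (h2 : IsUnit (2 : R)) :
    ((Tu.trace - 1) * (2 * (9 - Ph.trace ^ 2) + (Tu.trace - 2) * (6 - Ph.trace ^ 2))) •
      ((2 : R) • Tu - Tu.trace • (1 : M₂ R)) = 0 := by
  have hz := z_mul_z_add_three hrel hT (hP ▸ h2)
  have h := scale_identity Ph _ Tu.trace (Ph_mul_T0 hrel hT (hP ▸ h2))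
  rw [hP] at h
  have e : (2 : R) * ((1 - Tu.trace) * (Ph.trace ^ 2 * Tu.trace - 2 * (1 + Tu.trace) ^ 2))
      = 2 * ((Tu.trace - 1) * (2 * (9 - Ph.trace ^ 2) + (Tu.trace - 2) * (6 - Ph.trace ^ 2))) := by
    linear_combination (4 * (Tu.trace - 1)) * hz
  rw [e, mul_smul] at h
  exact (h2.smul_eq_zero).1 h

/-! #### summary corollaries -/

/-- (5g), (3g) : `tr Φ` or `z + 3` a unit, `9 - (tr Φ)²` a unit : `τ = 1`. -/
theorem eq_one_of_isUnit (hrel : Ph * Tu = Tu * Tu * Ph) (hT : Tu.det = 1) (hP : Ph.det = 2)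
    (h2 : IsUnit (2 : R)) (h : IsUnit Ph.trace ∨ IsUnit (Tu.trace + 1))
    (h9 : IsUnit (9 - Ph.trace ^ 2)) : Tu = 1 := by
  refine eq_one_of_trace hrel hT hP h2 ?_ h9
  rcases h with h | h
  · exact trace_eq_two_of_isUnit_trace hrel hT h
  · exact trace_eq_two_of_isUnit_add hrel hT (hP ▸ h2) h

/-- `tr (τ ^ k) - 2` is a multiple of `z = tr τ - 2`. -/
theorem exists_trace_pow_sub_two (hT : Tu.det = 1) (k : ℕ) :
    ∃ c : R, (Tu ^ k).trace - 2 = (Tu.trace - 2) * c := by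
  induction k using Nat.strong_induction_on with
  | _ k ih =>
    match k, ih with
    | 0, _ =>
      refine ⟨0, ?_⟩
      rw [pow_zero, Matrix.trace_one, Fintype.card_fin, mul_zero]
      push_cast
      ring
    | 1, _ => exact ⟨1, by rw [pow_one, mul_one]⟩
    | k + 2, ih =>
      obtain ⟨c₀, h₀⟩ := ih k (by omega)
      obtain ⟨c₁, h₁⟩ := ih (k + 1) (by omega)
      have e : Tu ^ (k + 2) = Tu.trace • Tu ^ (k + 1) - Tu ^ k := by
        rw [pow_add, pow_two, sq_eq hT, mul_sub, mul_smul_comm, mul_one, pow_succ]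
      refine ⟨Tu.trace * c₁ - c₀ + 2, ?_⟩
      rw [e, Matrix.trace_sub, Matrix.trace_smul, smul_eq_mul]
      linear_combination Tu.trace * h₁ - h₀

/-- `τ ^ k - 1 = N (1 + τ + ⋯ + τ ^ (k - 1))`. -/
theorem pow_sub_one_eq (k : ℕ) :
    Tu ^ k - 1 = (Tu - 1) * ∑ i ∈ Finset.range k, Tu ^ i :=
  (mul_geom_sum Tu k).symm

end Two

end Fermat.Agent.ML.At2.Loc
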