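import Fermat.Agent.ML.Main.Cell
import Fermat.Agent.ML.Main.LocCalc
import Fermat.Agent.ML.Low.Loc2Abs
import Fermat.Agent.ML.Low.Rho.Tame
import Fermat.Agent.ML.Rho.TameK
import Fermat.Agent.ML.Rho.ES
import Fermat.Agent.SS.Mod.S34Wire
import Fermat.Agent.SS.Mod.CuspOrdC
import Fermat.Agent.SS.Top35.SMO

/-!
# ML / At2 / Loc / Cases : the local conditions `LocUr`, `LocUnip` of a cell   ([L2-MIN2], in the vocabulary of `ML/Main/Cell.lean`)

GENERAL (any level `N`, rigid or not, any prime `q ≠ p`):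
* `locUr_of_not_dvd`   : `q ∤ N p`  ⟹  `LocUr q (J₀(N)[p^∞])`;
* `locUnip_of_single`  : `(τ - 1)² = 0` on an inertia-stable `G ≤ J₀(N)[p^∞]` for every SINGLE `τ`  ⟹  `LocUnip q G`
                         (two elements `τ, τ'` : the image of inertia is cyclic);
* `locUnip_of_exact`   : `q ∥ N`  ⟹  `LocUnip q (J₀(N)[p^∞])`;
* `locUnip_of_zOp`     : `z(τ) = 0` on `G`  ⟹  `LocUnip q G`;
* transport along Galois equivariant maps (`d₁^*`, `δ₀^*`, `pullA`, ...) : `LocUr.mono/.image`, `LocUnip.mono/.image` of `ML/Main/LocCalc.lean`.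

AT THE PRIME `2` (any level `N`; the level `4 ∥ N` is the one which is used):
* `MCtx.exists_locData` : the representation carried by `thetaPart N [p^(j+1)]` with its local data at `q ≠ p`;
* `MCtx.locUr_two`   ((5g), (3g)) : not mixed (`tr rbar0(Frob₂)² ≠ 9`)  ⟹  `LocUr 2 (thetaPart N)`;   `MCtx.mixed2_of_ram`;
* `MCtx.locUnip_two` ((5r), and (5s)) : `p ≠ 3`  ⟹  `LocUnip 2 (thetaPart N)`.

The cases (3r) (`G ≤ δ₀^* J₀(2 M'')`) and mixed (`G ≤ d₁^* J₀(M'')`) are `locUnip_of_exact` / `locUr_of_not_dvd` + `.image` + `.mono`.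
-/

set_option autoImplicit false
set_option linter.unusedSectionVars false
set_option linter.style.haveILetI false

noncomputable section

open AlgebraicCurve ModularCurve Module

namespace Fermat.Agent.ML

open Fermat.Agent.RIB Fermat.Agent.RIB.Rho
open Fermat.Agent.GAL Fermat.Agent.GAL.PC Fermat.Agent.TW.TR

local notation "Qbar" => AlgebraicClosure ℚ
local notation "GQ" => (AlgebraicClosure ℚ ≃ₐ[ℚ] AlgebraicClosure ℚ)
local notation "M₂" => Matrix (Fin 2) (Fin 2)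

/-! ### general levels -/

/-- good reduction. -/
theorem locUr_of_not_dvd (N : ℕ) [NeZero N] (p : ℕ) {q : ℕ} (hq : q.Prime) (hqN : ¬ q ∣ N * p) :
    LocUr q {x : JZero N | ∃ n : ℕ, p ^ n • x = 0} :=
  fun A hA τ hτ x hx => (SS.es_all N p).1 q hq hqN A hA τ hτ x hx

section Single

variable {N : ℕ} [NeZero N] {p q : ℕ}

theorem pow_eq_of_sq_zero {E : Type} [Ring E] {w : E} (hw : (w - 1) * (w - 1) = 0) (k : ℕ) :
    w ^ k = 1 + k • (w - 1) := by
  have := S56.one_add_pow_of_sq_zero (w - 1) hw k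
  rwa [add_sub_cancel] at this

theorem sub_one_mul_sub_one_of_pow {E : Type} [Ring E] {u v w : E}
    (hw : (w - 1) * (w - 1) = 0) {k k' : ℕ} (hu : u = w ^ k) (hv : v = w ^ k') :
    (v - 1) * (u - 1) = 0 := by
  rw [hu, hv, pow_eq_of_sq_zero hw, pow_eq_of_sq_zero hw, add_sub_cancel_left, add_sub_cancel_left,
    smul_mul_smul_comm, hw, smul_zero]

/-- the action of a group on a stable subgroup. -/
def stabEnd {J Γ : Type} [AddCommGroup J] [Group Γ] [DistribMulAction Γ J] (H : AddSubgroup J)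
    (hH : ∀ σ : Γ, ∀ x ∈ H, σ • x ∈ H) : Γ →* Module.End ℤ ↥H where
  toFun τ := AddMonoidHom.toIntLinearMap
    { toFun := fun x => ⟨τ • x.1, hH τ x.1 x.2⟩
      map_zero' := Subtype.ext (smul_zero τ)
      map_add' := fun x y => Subtype.ext (smul_add τ x.1 y.1) }
  map_one' := by
    ext x
    exact one_smul Γ x.1
  map_mul' σ τ := by
    ext x
    exact mul_smul σ τ x.1

/-- the abstract form of `locUnip_of_single`. -/
theorem unip_two_abs {J Γ : Type} [AddCommGroup J] [Group Γ] [DistribMulAction Γ J]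
    (H : AddSubgroup J) (hH : ∀ σ : Γ, ∀ x ∈ H, σ • x ∈ H) (M : ℕ) (hM : ∀ x ∈ H, M • x = 0)
    (hsq : ∀ σ : Γ, ∀ x ∈ H, σ • σ • x - 2 • σ • x + x = 0)
    (hcyc : ∀ f : Γ →* Module.End ℤ ↥H, (∀ σ y, ((f σ y : ↥H) : J) = σ • (y : J)) →
      (∀ σ, f σ ^ M = 1) → ∃ σ₀, ∀ σ, ∃ n : ℕ, f σ = f σ₀ ^ n) (σ σ' : Γ) (x : J) (hx : x ∈ H) :
    σ' • (σ • x - x) = σ • x - x := by
  set f := stabEnd H hH with hfdef
  have hf : ∀ σ y, ((f σ y : ↥H) : J) = σ • (y : J) := fun _ _ => rfl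
  have hsq' : ∀ σ, (f σ - 1) * (f σ - 1) = 0 := by
    intro σ
    refine LinearMap.ext fun v => Subtype.ext ?_
    rw [Module.End.mul_apply, LinearMap.sub_apply, LinearMap.sub_apply, Module.End.one_apply,
      Module.End.one_apply, map_sub, LinearMap.zero_apply, AddSubgroup.coe_zero,
      AddSubgroup.coe_sub, AddSubgroup.coe_sub, AddSubgroup.coe_sub, hf, hf, ← hsq σ v.1 v.2,
      two_nsmul]
    abel
  have htors : ∀ σ, f σ ^ M = 1 := by
    intro σ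
    rw [pow_eq_of_sq_zero (hsq' σ)]
    have : M • (f σ - 1) = 0 := LinearMap.ext fun v => Subtype.ext (by
      rw [LinearMap.smul_apply, LinearMap.zero_apply, AddSubgroup.coe_nsmul, AddSubgroup.coe_zero]
      exact hM _ ((f σ - 1) v).2)
    rw [this, add_zero]
  obtain ⟨σ₀, hσ₀⟩ := hcyc f hf htors
  obtain ⟨k, hk⟩ := hσ₀ σ
  obtain ⟨k', hk'⟩ := hσ₀ σ'
  have key := sub_one_mul_sub_one_of_pow (hsq' σ₀) hk hk'
  have e := congrArg (fun Z : Module.End ℤ ↥H => ((Z ⟨x, hx⟩ : ↥H) : J)) key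
  simp only [Module.End.mul_apply, LinearMap.sub_apply, Module.End.one_apply,
    LinearMap.zero_apply, AddSubgroup.coe_sub, AddSubgroup.coe_zero, hf, map_sub] at e
  rw [smul_sub, ← sub_eq_zero, ← e]
  abel

/-- the `m`-torsion of `G`. -/
def subTors (G : AddSubgroup (JZero N)) (m : ℕ) : AddSubgroup (JZero N) where
  carrier := {y | y ∈ G ∧ m • y = 0}
  zero_mem' := ⟨G.zero_mem, smul_zero _⟩
  add_mem' := fun {a b} ha hb => ⟨G.add_mem ha.1 hb.1, by rw [nsmul_add, ha.2, hb.2, add_zero]⟩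
  neg_mem' := fun {a} ha => ⟨G.neg_mem ha.1, by rw [neg_nsmul, ha.2, neg_zero]⟩

/-- **two elements** : if every single `τ ∈ I_A` satisfies `(τ - 1)² = 0` on `G` then `(τ' - 1)(τ - 1) = 0` on `G`. -/
theorem locUnip_of_single (hp : p.Prime) (hq : q.Prime) (hqp : q ≠ p) (G : AddSubgroup (JZero N))
    (hGp : ∀ x ∈ G, ∃ n : ℕ, p ^ n • x = 0)
    (hGI : ∀ A : ValuationSubring Qbar, A.LiesOverPrime q → ∀ τ ∈ A.inertiaSubgroupIn ℚ,
      ∀ x ∈ G, τ • x ∈ G)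
    (h : ∀ A : ValuationSubring Qbar, A.LiesOverPrime q → ∀ τ ∈ A.inertiaSubgroupIn ℚ,
      ∀ x ∈ G, τ • τ • x - 2 • τ • x + x = 0) :
    LocUnip q (G : Set (JZero N)) := by
  intro A hA τ hτ τ' hτ' x hx
  obtain ⟨n, hn⟩ := hGp x hx
  have hH : ∀ σ : ↥(A.inertiaSubgroupIn ℚ), ∀ y ∈ subTors G (p ^ n), σ • y ∈ subTors G (p ^ n) :=
    fun σ y hy => ⟨hGI A hA σ σ.2 y hy.1, by
      show p ^ n • ((σ : GQ) • y) = 0
      rw [← gal_nsmul, hy.2, gal_zero]⟩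
  exact unip_two_abs (subTors G (p ^ n)) hH (p ^ n) (fun y hy => hy.2)
    (fun σ y hy => h A hA σ σ.2 y hy.1)
    (fun f hf ht => by
      refine S56.tame_cyclic hq hA f ?_ (p ^ n)
        (Nat.Coprime.pow_left _ ((Nat.coprime_primes hp hq).2 (Ne.symm hqp))) ht
      obtain ⟨L, hL1, hL2⟩ := exists_level_torsion N (p ^ n) (pow_ne_zero _ hp.ne_zero)
      refine ⟨L, hL1, fun σ hσ => ?_⟩
      refine LinearMap.ext fun y => Subtype.ext ?_
      rw [hf, Module.End.one_apply]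
      exact hL2 σ hσ y.1 y.2.2)
    ⟨τ, hτ⟩ ⟨τ', hτ'⟩ x ⟨hx, hn⟩

/-- semistable reduction : `q ∥ N`. -/
theorem locUnip_of_exact (N : ℕ) [NeZero N] {p q : ℕ} (hp : p.Prime) (hq : q.Prime) (hqp : q ≠ p)
    (hqN : q ∣ N) (hq2 : ¬ q ^ 2 ∣ N) : LocUnip q {x : JZero N | ∃ n : ℕ, p ^ n • x = 0} := by
  have hun := SS.unip_of_cuspOrd (fun M q _ _ _ => SS.cuspOrd M q) hq hp hqp hqN hq2
  have := locUnip_of_single hp hq hqp (ptors (JZero N) p) (fun x hx => hx)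
    (fun A _ τ _ x hx => SS.smul_torsion N τ x hx) (fun A hA τ hτ x hx => hun A hA τ hτ x hx)
  exact this

/-- `z(τ) = 0` on `G`. -/
theorem locUnip_of_zOp (hp : p.Prime) (hq : q.Prime) (hqp : q ≠ p) (G : AddSubgroup (JZero N))
    (hGp : ∀ x ∈ G, ∃ n : ℕ, p ^ n • x = 0)
    (hGI : ∀ A : ValuationSubring Qbar, A.LiesOverPrime q → ∀ τ ∈ A.inertiaSubgroupIn ℚ,
      ∀ x ∈ G, τ • x ∈ G)
    (h : ∀ A : ValuationSubring Qbar, A.LiesOverPrime q → ∀ τ ∈ A.inertiaSubgroupIn ℚ,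
      ∀ x ∈ G, zOp τ x = 0) :
    LocUnip q (G : Set (JZero N)) := by
  refine locUnip_of_single hp hq hqp G hGp hGI fun A hA τ hτ x hx => ?_
  have e := congrArg (fun y => τ • y) (h A hA τ hτ x hx)
  simp only [zOp, smul_sub, smul_add, smul_inv_smul] at e
  rw [gal_zero, gal_nsmul] at e
  rw [← e]
  abel

end Single

/-! ### the representation on `thetaPart N [p^(j+1)]` and its local data at `q ≠ p` -/

section Data

variable {p : ℕ} [Fact p.Prime] {T : Finset ℕ} {θ : ℕ → ℤ} {rbar0 : GQ →* M₂ (ZMod p)}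

theorem MCtx.rbar_pow_p_eq_one (C : MCtx p T θ rbar0) {q : ℕ} (hq : q.Prime) (hqp : q ≠ p)
    {A : ValuationSubring Qbar} (hA : A.LiesOverPrime q) {σ : GQ}
    (hσ : σ ∈ A.inertiaSubgroupIn ℚ) : rbar0 σ ^ p = 1 := by
  rw [pow_eq_of_sq_zero (C.unipI q hq hqp A hA σ hσ σ hσ) p, nsmul_eq_mul]
  have : ((p : ℕ) : M₂ (ZMod p)) = 0 := by
    rw [← map_natCast (algebraMap (ZMod p) (M₂ (ZMod p))), ZMod.natCast_self, map_zero]
  rw [this, zero_mul, add_zero]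

set_option maxHeartbeats 2000000 in
/-- **the local data at `q ≠ p`.** -/
theorem MCtx.exists_locData (C : MCtx p T θ rbar0) (S : Finset ℕ) (hTS : T ⊆ S) (N : ℕ) [NeZero N]
    (hN : ∀ r : ℕ, r.Prime → r ∣ N * p → r ∈ S) {m j : ℕ} (hm : m = p ^ (j + 1)) {q : ℕ}
    (hq : q.Prime) (hqp : q ≠ p)
    {A : ValuationSubring Qbar} (hA : A.LiesOverPrime q) {φ : GQ} (hφ : A.IsFrobeniusAt φ q)
    (hnt : Nontrivial ↥(thTors N p m (↑S : Set ℕ) θ)) :
    ∃ (R : Type) (_ : CommRing R) (_ : IsLocalRing R)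
      (_ : Module R ↥(thTors N p m (↑S : Set ℕ) θ)) (π0 : R →+* ZMod p)
      (ρ : GQ →* M₂ R)
      (Φ : M₂ R →ₐ[R] Module.End R ↥(thTors N p m (↑S : Set ℕ) θ)),
      (∀ (g : GQ) v, Φ (ρ g) v = g • v) ∧ (∀ X : M₂ R, (∀ v, Φ X v = 0) → X = 0) ∧
      (∀ x, π0 x = 0 ↔ IsNilpotent x) ∧ (∀ x, π0 x ≠ 0 ↔ IsUnit x) ∧
      (∀ g, (ρ g).map π0 = rbar0 g) ∧ (ρ φ).det = (q : R) ∧
      ∀ τ ∈ A.inertiaSubgroupIn ℚ, (ρ τ).det = 1 ∧ ρ φ * ρ τ = ρ τ ^ q * ρ φ := by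
  have hp : p.Prime := Fact.out
  haveI : NeZero m := ⟨by rw [hm]; exact pow_ne_zero _ hp.ne_zero⟩
  have hpm : p ∣ m := by rw [hm]; exact dvd_pow_self p (Nat.succ_ne_zero j)
  obtain ⟨σ₀, τ₀, u0, hu0, hnf⟩ := C.nf
  obtain ⟨R, iC, iA, iM, iT, iF, t, ρ, Φ, h1, h2, h3, h4, h5, h6, h7, ⟨θ', hθ', hθn⟩, h8⟩ :=
    exists_rho_tors (V := ↥(thTors N p m (↑S : Set ℕ) θ)) (m := m)
      (thTors N p m (↑S : Set ℕ) θ).subtype
      Subtype.val_injective (fun _ _ => rfl) hp (j := j + 1) hm hpm S hN θ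
      (fun r hr v => v.2.1.2 r (fun h => hr (Finset.mem_coe.1 h)))
      rbar0 C.cont (fun r hr hrS => C.frob r hr (fun h => hrS (hTS h)))
      (inv_mul_cancel₀ C.two_ne_zero) complexConjugation_mul_self
      (chiM_complexConjugation m) hu0
  have hRn : Nontrivial R := by
    rcases subsingleton_or_nontrivial R with hs | hn
    · exfalso
      obtain ⟨v, hv⟩ := exists_ne (0 : ↥(thTors N p m (↑S : Set ℕ) θ))
      apply hv
      calc v = (1 : R) • v := (one_smul R v).symm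
        _ = (0 : R) • v := by rw [Subsingleton.elim (1 : R) 0]
        _ = 0 := zero_smul R v
    · exact hn
  obtain ⟨π0, hπc, hπ0, hπu, hπt⟩ := exists_pi0 hp hm hpm t (fun g => ((θ' g : ℤ) : ZMod m)) h2
    (fun g => by rw [map_intCast]; exact hθn g)
  have hloc : IsLocalRing R := isLocalRing_of_pi0 π0 hπu
  have hmap : ∀ g, (ρ g).map π0 = rbar0 g := fun g => by
    have e := (h8 (ZMod p) π0 (RingHom.id (ZMod p)) (fun x hx => (hπ0 x).2 hx) g).2
    rw [e, ← hnf g]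
    ext a b
    rfl
  have hqm : Nat.Coprime q m := by
    rw [hm]
    exact Nat.Coprime.pow_right _ ((Nat.coprime_primes hq hp).2 hqp)
  set I : Ideal R := nilradical R with hI
  obtain ⟨K, hK⟩ : ∃ K : ℕ, I ^ K = ⊥ := IsNoetherianRing.isNilpotent_nilradical R
  have hpI : ((p : ℕ) : R) ∈ I := by
    rw [hI, mem_nilradical, ← hπ0, map_natCast, ZMod.natCast_self]
  have hcont : GaloisFactorsThroughFiniteLevel ρ := by
    obtain ⟨F, hF1, hF2⟩ := exists_level_torsion N m (NeZero.ne m)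
    refine ⟨F, hF1, fun σ hσ => sub_eq_zero.1 (h7 _ fun v => ?_)⟩
    rw [map_sub, map_one, LinearMap.sub_apply, h6, Module.End.one_apply, sub_eq_zero]
    exact Subtype.ext (hF2 σ hσ v.1 v.2.2)
  have hun : ∀ σ ∈ A.inertiaSubgroupIn ℚ, ∀ a b, (ρ σ ^ (p ^ 1) - 1) a b ∈ I := by
    intro σ hσ a b
    rw [hI, mem_nilradical, ← hπ0, pow_one]
    have e : π0.mapMatrix (ρ σ ^ p - 1) = 0 := by
      rw [map_sub, map_pow, map_one, RingHom.mapMatrix_apply, hmap,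
        C.rbar_pow_p_eq_one hq hqp hA hσ, sub_self]
    exact congrFun (congrFun e a) b
  refine ⟨R, iC, hloc, iM, π0, ρ, Φ, h6, h7, hπ0, hπu, hmap, ?_, fun τ hτ => ⟨?_, ?_⟩⟩
  · rw [h5, chiM_apply, cycloChar_of_isFrobeniusAt' m hq hqm hA hφ, map_natCast]
  · rw [h5, chiM_apply, cycloChar_of_mem_inertia' m hq hqm hA hτ, Units.val_one, map_one]
  · exact tame_conj hp hq hqp hA hcont hK hpI 1 hun hφ hτ

end Data

/-! ### the prime `2` -/

section Two

variable {p : ℕ} [Fact p.Prime] {T : Finset ℕ} {θ : ℕ → ℤ} {rbar0 : GQ →* M₂ (ZMod p)}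

/-- a `2 × 2` matrix over a field with square zero has trace zero. -/
theorem trace_zero_of_mul_self_zero {k : Type*} [Field k] (Z : M₂ k) (h : Z * Z = 0) :
    Z.trace = 0 := by
  have h00 := congrFun (congrFun h 0) 0
  have h01 := congrFun (congrFun h 0) 1
  have h11 := congrFun (congrFun h 1) 1
  simp only [Matrix.mul_apply, Fin.sum_univ_two, Matrix.zero_apply] at h00 h01 h11
  rw [Matrix.trace_fin_two]
  by_contra hne
  have hb : Z 0 1 = 0 := by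
    have : Z 0 1 * (Z 0 0 + Z 1 1) = 0 := by linear_combination h01
    exact (mul_eq_zero.1 this).resolve_right hne
  have ha : Z 0 0 = 0 := by
    have : Z 0 0 * Z 0 0 = 0 := by rw [hb] at h00; simpa using h00
    exact mul_self_eq_zero.1 this
  have hd : Z 1 1 = 0 := by
    have : Z 1 1 * Z 1 1 = 0 := by rw [hb] at h11; simpa using h11
    exact mul_self_eq_zero.1 this
  exact hne (by rw [ha, hd, add_zero])

theorem MCtx.trace_inertia_eq_two (C : MCtx p T θ rbar0) {q : ℕ} (hq : q.Prime) (hqp : q ≠ p)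
    {A : ValuationSubring Qbar} (hA : A.LiesOverPrime q) {σ : GQ}
    (hσ : σ ∈ A.inertiaSubgroupIn ℚ) : (rbar0 σ).trace = 2 := by
  have h0 := trace_zero_of_mul_self_zero (rbar0 σ - 1) (C.unipI q hq hqp A hA σ hσ σ hσ)
  rw [Matrix.trace_sub, Matrix.trace_one, sub_eq_zero] at h0
  rw [h0]
  simp

theorem trace_map_pi0 {R : Type} [CommRing R] (π0 : R →+* ZMod p) (X : M₂ R) :
    π0 X.trace = (X.map π0).trace := by
  rw [Matrix.trace_fin_two, Matrix.trace_fin_two, map_add]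
  rfl

/-- **(5g), (3g)** : `tr rbar0(Frob₂)² ≠ 9` (then `rbar0` is unramified at `2`) : the whole `θ`-part is unramified at `2`, at EVERY level. -/
theorem MCtx.locUr_two (C : MCtx p T θ rbar0) (S : Finset ℕ) (hTS : T ⊆ S) (N : ℕ) [NeZero N]
    (hN : ∀ r : ℕ, r.Prime → r ∣ N * p → r ∈ S) (hnm : ¬ Mixed2 rbar0) :
    LocUr 2 ((thetaPart N p (↑S : Set ℕ) θ : AddSubgroup (JZero N)) : Set (JZero N)) := by
  intro A hA τ hτ x hx
  have hp : p.Prime := Fact.out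
  obtain ⟨j, hj⟩ := hx.1
  have hxm : x ∈ thTors N p (p ^ (j + 1)) (↑S : Set ℕ) θ :=
    ⟨hx, by rw [pow_succ, mul_comm, mul_smul, hj, smul_zero]⟩
  by_cases hx0 : x = 0
  · rw [hx0, gal_zero]
  have hnt : Nontrivial ↥(thTors N p (p ^ (j + 1)) (↑S : Set ℕ) θ) :=
    ⟨⟨⟨x, hxm⟩, 0, fun h => hx0 (congrArg Subtype.val h)⟩⟩
  obtain ⟨φ, hφ⟩ := S54.exists_isFrobeniusAt_of_liesOverPrime Nat.prime_two A hA
  obtain ⟨R, iC, iL, iM, π0, ρ, Φ, hact, hinj, hπ0, hπu, hmap, hdetφ, hloc⟩ :=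
    C.exists_locData S hTS N hN rfl Nat.prime_two (Ne.symm C.hp2) hA hφ hnt
  obtain ⟨hdetτ, hrel⟩ := hloc τ hτ
  have h2 : IsUnit (2 : R) := (hπu 2).1 (by rw [map_ofNat]; exact C.two_ne_zero)
  have hz : (ρ τ).trace - 2 ∈ IsLocalRing.maximalIdeal R := by
    rw [IsLocalRing.mem_maximalIdeal, mem_nonunits_iff, ← hπu, not_not, map_sub, trace_map_pi0,
      hmap, C.trace_inertia_eq_two Nat.prime_two (Ne.symm C.hp2) hA hτ, map_ofNat, sub_self]
  have hgood : IsUnit (9 - (ρ φ).trace ^ 2) := by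
    rw [← hπu, map_sub, map_pow, trace_map_pi0, hmap, map_ofNat]
    intro h
    exact hnm ⟨A, hA, φ, hφ, (sub_eq_zero.1 h).symm⟩
  have h1 : ρ τ = 1 := Low.loc2_good h2 (ρ φ) (ρ τ) hdetτ (by rw [hdetφ]; norm_num) hrel hz hgood
  have e := hact τ ⟨x, hxm⟩
  rw [h1, map_one] at e
  exact (congrArg Subtype.val e).symm

/-- `rbar0` ramified at `2`  ⟹  mixed. -/
theorem MCtx.mixed2_of_ram (C : MCtx p T θ rbar0) (h : Ram rbar0 2) : Mixed2 rbar0 := by
  by_contra hnm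
  obtain ⟨A, hA, τ, hτ, h1⟩ := h
  obtain ⟨φ, hφ⟩ := S54.exists_isFrobeniusAt_of_liesOverPrime Nat.prime_two A hA
  have hp : p.Prime := Fact.out
  have hrel : rbar0 φ * rbar0 τ = rbar0 τ ^ 2 * rbar0 φ :=
    tame_conj (I := (⊥ : Ideal (ZMod p))) (N := 1) hp Nat.prime_two (Ne.symm C.hp2) hA C.cont
      (pow_one _) (by rw [ZMod.natCast_self]; exact Ideal.zero_mem _) 1
      (fun σ hσ a b => by
        rw [pow_one, C.rbar_pow_p_eq_one Nat.prime_two (Ne.symm C.hp2) hA hσ, sub_self]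
        exact Ideal.zero_mem _) hφ hτ
  have hdetτ : (rbar0 τ).det = 1 := by
    rw [C.det, show ExtCitation.cycloChar p τ = 1 from
      GAL.cycloChar_of_mem_inertia Nat.prime_two (Ne.symm C.hp2) hA hτ, Units.val_one]
  have hdetφ : (rbar0 φ).det = 2 := by
    rw [C.det, show ((ExtCitation.cycloChar p φ : (ZMod p)ˣ) : ZMod p) = ((2 : ℕ) : ZMod p) from
      GAL.cycloChar_of_isFrobeniusAt Nat.prime_two (Ne.symm C.hp2) hA hφ]
    norm_num
  refine h1 (Low.loc2_good (IsUnit.mk0 _ C.two_ne_zero) (rbar0 φ) (rbar0 τ) hdetτ hdetφ hrel ?_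
    (IsUnit.mk0 _ fun h => hnm ⟨A, hA, φ, hφ, (sub_eq_zero.1 h).symm⟩))
  rw [C.trace_inertia_eq_two Nat.prime_two (Ne.symm C.hp2) hA hτ, sub_self]
  exact Ideal.zero_mem _

/-- **(5r)** (and (5s), (5g)) : `p ≠ 3` : inertia at `2` is unipotent on the whole `θ`-part, at EVERY level. -/
theorem MCtx.locUnip_two (C : MCtx p T θ rbar0) (S : Finset ℕ) (hTS : T ⊆ S) (N : ℕ) [NeZero N]
    (hN : ∀ r : ℕ, r.Prime → r ∣ N * p → r ∈ S) (hp3 : p ≠ 3) :
    LocUnip 2 ((thetaPart N p (↑S : Set ℕ) θ : AddSubgroup (JZero N)) : Set (JZero N)) := by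
  have hp : p.Prime := Fact.out
  refine locUnip_of_single hp Nat.prime_two (Ne.symm C.hp2) _ (fun x hx => hx.1)
    (fun A _ τ _ x hx => smul_mem_thetaPart τ hx) fun A hA τ hτ x hx => ?_
  obtain ⟨j, hj⟩ := hx.1
  have hxm : x ∈ thTors N p (p ^ (j + 1)) (↑S : Set ℕ) θ :=
    ⟨hx, by rw [pow_succ, mul_comm, mul_smul, hj, smul_zero]⟩
  by_cases hx0 : x = 0
  · rw [hx0, gal_zero, gal_zero, smul_zero, sub_zero, add_zero]
  have hnt : Nontrivial ↥(thTors N p (p ^ (j + 1)) (↑S : Set ℕ) θ) :=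
    ⟨⟨⟨x, hxm⟩, 0, fun h => hx0 (congrArg Subtype.val h)⟩⟩
  obtain ⟨φ, hφ⟩ := S54.exists_isFrobeniusAt_of_liesOverPrime Nat.prime_two A hA
  obtain ⟨R, iC, iL, iM, π0, ρ, Φ, hact, hinj, hπ0, hπu, hmap, hdetφ, hloc⟩ :=
    C.exists_locData S hTS N hN rfl Nat.prime_two (Ne.symm C.hp2) hA hφ hnt
  obtain ⟨hdetτ, hrel⟩ := hloc τ hτ
  have h2 : IsUnit (2 : R) := (hπu 2).1 (by rw [map_ofNat]; exact C.two_ne_zero)
  have h3 : (3 : ZMod p) ≠ 0 := by
    intro h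
    have h' : ((3 : ℕ) : ZMod p) = 0 := by exact_mod_cast h
    rw [ZMod.natCast_eq_zero_iff] at h'
    exact hp3 ((Nat.prime_dvd_prime_iff_eq hp Nat.prime_three).1 h')
  have hu : IsUnit ((ρ τ).trace - 2 + 3) := by
    rw [← hπu, map_add, map_sub, trace_map_pi0, hmap,
      C.trace_inertia_eq_two Nat.prime_two (Ne.symm C.hp2) hA hτ, map_ofNat, map_ofNat, sub_self, zero_add]
    exact h3
  have hz0 : (ρ τ).trace - 2 = 0 :=
    hu.mul_left_eq_zero.1 (Low.loc2_z h2 (ρ φ) (ρ τ) hdetτ (by rw [hdetφ]; norm_num) hrel)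
  have hsq : ρ τ * ρ τ - 2 • ρ τ + 1 = 0 := by
    rw [Low.ch_two, hdetτ, sub_eq_zero.1 hz0, one_smul, two_smul, two_nsmul]
    abel
  have e := congrArg (fun Z => Φ Z ⟨x, hxm⟩) hsq
  simp only [map_add, map_sub, map_mul, map_nsmul, map_one, map_zero, LinearMap.add_apply,
    LinearMap.sub_apply, Module.End.mul_apply, LinearMap.smul_apply, Module.End.one_apply,
    LinearMap.zero_apply, hact] at e
  exact congrArg Subtype.val e

end Two

end Fermat.Agent.ML
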