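import Fermat.Agent.ML.At2.Loc.Alg
import Fermat.Agent.ML.Main.Cell
import Fermat.Agent.ML.Rho.Bridge
import Fermat.Agent.ML.Main.LiftRho
import Fermat.Agent.ML.Rho.TameK
import Fermat.Agent.Common.PlaceBridge

/-!
# ML / At2 / Loc / Out2 : the multipliers at the prime `2`   ([CELL-2], RS-out)

`ρ : G_ℚ → M₂(R)`, `A ∣ 2`, `φ` a Frobenius at `A`, `τ` a generator of `ρ(I_A)`.   `z₃ = tr ρ(τ) + 1 (= z₂ + 3)`, `β₂ = (9 - tr ρ(φ)²) z₃`.

* `TwoData ρ A φ τ`, `exists_twoData`;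
* `TwoData.beta_smul` : `β₂ (ρ σ - 1) = 0`, `TwoData.z3_smul` : `z₃ (ρ σ' - 1)(ρ σ - 1) = 0` for `σ σ'` in the inertia group of ANY place above `2`;
* `TwoData.locUr`, `TwoData.locUnip` : `LocUr 2 (β₂ V)`, `LocUnip 2 (z₃ V)`  (`RhoAct`), and the versions for `Rho.IsRhoK` in `J₀(L)`;
* the VALUES : `z3_smul_eq` (`z₃ x = 3 x` if `τ` is unipotent on `x`), `beta_smul_eq` (`β₂ x = 3 (9 - a²) x` if moreover `tr ρ(φ) x = a x`).
-/

set_option autoImplicit false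

noncomputable section

namespace Fermat.Agent.ML.At2.Loc

open Fermat.Agent.RIB
open scoped Pointwise

local notation "Qbar" => AlgebraicClosure ℚ
local notation "GQ" => (AlgebraicClosure ℚ ≃ₐ[ℚ] AlgebraicClosure ℚ)
local notation "M₂" => Matrix (Fin 2) (Fin 2)

variable {R : Type} [CommRing R]

/-- the local data at `2`. -/
structure TwoData (ρ : GQ →* M₂ R) (A : ValuationSubring Qbar) (φ τ : GQ) : Prop where
  hA : A.LiesOverPrime 2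
  gen : ∀ σ ∈ A.inertiaSubgroupIn ℚ, ∃ n : ℕ, ρ σ = ρ τ ^ n
  rel : ρ φ * ρ τ = ρ τ * ρ τ * ρ φ
  detT : (ρ τ).det = 1
  detP : (ρ φ).det = 2
  two : IsUnit (2 : R)

/-- `z₂ + 3`. -/
def z3 (ρ : GQ →* M₂ R) (τ : GQ) : R := (ρ τ).trace + 1

/-- `β₂ = (9 - t₂²)(z₂ + 3)`. -/
def beta2 (ρ : GQ →* M₂ R) (φ τ : GQ) : R := (9 - (ρ φ).trace ^ 2) * z3 ρ τ

/-- the data exist. -/
theorem exists_twoData {p : ℕ} (hp : p.Prime) (hp2 : p ≠ 2) {A : ValuationSubring Qbar}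
    (hA : A.LiesOverPrime 2) {ρ : GQ →* M₂ R} (hcont : GaloisFactorsThroughFiniteLevel ρ)
    {I : Ideal R} {N : ℕ} (hI : I ^ N = ⊥) (hpI : ((p : ℕ) : R) ∈ I) (e : ℕ)
    (hun : ∀ σ ∈ A.inertiaSubgroupIn ℚ, ∀ i j, (ρ σ ^ (p ^ e) - 1) i j ∈ I)
    (hdetI : ∀ σ ∈ A.inertiaSubgroupIn ℚ, (ρ σ).det = 1)
    (hdetF : ∀ φ : GQ, A.IsFrobeniusAt φ 2 → (ρ φ).det = 2) (h2 : IsUnit (2 : R)) :
    ∃ τ ∈ A.inertiaSubgroupIn ℚ, ∀ φ : GQ, A.IsFrobeniusAt φ 2 → TwoData ρ A φ τ := by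
  obtain ⟨τ, hτ, hgen⟩ := exists_tame_gen hp Nat.prime_two (Ne.symm hp2) hA hcont hI hpI e hun
  refine ⟨τ, hτ, fun φ hφ => ⟨hA, hgen, ?_, hdetI τ hτ, hdetF φ hφ, h2⟩⟩
  rw [tame_conj hp Nat.prime_two (Ne.symm hp2) hA hcont hI hpI e hun hφ hτ, pow_two]

/-- the data exist : `ρ` lifts `rbar0`, `ker π0` nilpotent. -/
theorem exists_twoData_of_lift {p : ℕ} [Fact p.Prime] {T : Finset ℕ} {θ : ℕ → ℤ}
    {rbar0 : GQ →* M₂ (ZMod p)} (EC : MCtx p T θ rbar0) {A : ValuationSubring Qbar}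
    (hA : A.LiesOverPrime 2) {ρ : GQ →* M₂ R} (hcont : GaloisFactorsThroughFiniteLevel ρ)
    {π0 : R →+* ZMod p} (hlift : ∀ σ, (ρ σ).map π0 = rbar0 σ) {N : ℕ}
    (hN : RingHom.ker π0 ^ N = ⊥) (hloc : ∀ a : R, π0 a ≠ 0 → IsUnit a)
    (hdetI : ∀ σ ∈ A.inertiaSubgroupIn ℚ, (ρ σ).det = 1)
    (hdetF : ∀ φ : GQ, A.IsFrobeniusAt φ 2 → (ρ φ).det = 2) :
    ∃ τ ∈ A.inertiaSubgroupIn ℚ, ∀ φ : GQ, A.IsFrobeniusAt φ 2 → TwoData ρ A φ τ := by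
  have hp : p.Prime := Fact.out
  refine exists_twoData hp EC.hp2 hA hcont hN ?_ 1 (fun σ hσ i j => ?_) hdetI hdetF (hloc _ ?_)
  · rw [RingHom.mem_ker, map_natCast, ZMod.natCast_self]
  · have h1 := EC.unipI 2 Nat.prime_two (Ne.symm EC.hp2) A hA σ hσ σ hσ
    have h2 := S56.one_add_pow_of_sq_zero (rbar0 σ - 1) h1 p
    rw [add_sub_cancel, ← Nat.cast_smul_eq_nsmul (ZMod p), ZMod.natCast_self, zero_smul,
      add_zero] at h2
    have h3 : (ρ σ ^ (p ^ 1) - 1).map π0 = 0 := by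
      have e : (ρ σ ^ (p ^ 1) - 1).map π0 = π0.mapMatrix (ρ σ ^ (p ^ 1) - 1) := rfl
      rw [e, map_sub, map_pow, map_one, pow_one]
      have e2 : π0.mapMatrix (ρ σ) = rbar0 σ := hlift σ
      rw [e2, h2, sub_self]
    exact congrFun (congrFun h3 i) j
  · rw [map_ofNat]
    intro h0
    have : ((2 : ℕ) : ZMod p) = 0 := by exact_mod_cast h0
    rw [ZMod.natCast_eq_zero_iff] at this
    exact EC.hp2 ((Nat.prime_dvd_prime_iff_eq hp Nat.prime_two).1 this)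

/-- the data exist at the top of the tower. -/
theorem _root_.Fermat.Agent.ML.Lift.TopCtx.exists_twoData {W : WeierstrassCurve ℤ} {p : ℕ}
    [Fact p.Prime] {b : Module.Basis (Fin 2) (ZMod p) (ESide.TorsW W p)} {K : ℕ}
    {B : Module.Basis (Fin 2) (ZMod (p ^ (K + 1))) (ESide.TorsW W (p ^ (K + 1)))} {N : ℕ} [NeZero N]
    {X : AddSubgroup (ModularCurve.JZero N)} [Finite R] [Algebra (ZMod (p ^ (K + 1))) R]
    [Module R ↥X] {πE : R →ₐ[ZMod (p ^ (K + 1))] ZMod (p ^ (K + 1))} {ρ : GQ →* M₂ R}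
    {Φ : M₂ R →ₐ[R] Module.End R ↥X} (C : Lift.TopCtx W p b K B N X)
    (H : Rho.IsRhoK N (p ^ (K + 1)) X (ESide.rEB B) πE ρ Φ) {T : Finset ℕ} {θ : ℕ → ℤ}
    (EC : MCtx p T θ (ESide.rbarB b)) {A : ValuationSubring Qbar} (hA : A.LiesOverPrime 2) :
    ∃ τ ∈ A.inertiaSubgroupIn ℚ, ∀ φ : GQ, A.IsFrobeniusAt φ 2 → TwoData ρ A φ τ := by
  have hfg : (RingHom.ker (Lift.pi0 πE)).FG := IsNoetherian.noetherian _
  obtain ⟨n, hn⟩ := (Ideal.FG.isNilpotent_iff_le_nilradical hfg).2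
    (Lift.TopCtx.ker_pi0_le_nilradical H)
  refine exists_twoData_of_lift EC hA (C.cont H) (C.lift H) hn
    (fun a ha => Lift.TopCtx.isUnit_of_pi0 H ha)
    (fun σ hσ => C.det_inertia H Nat.prime_two (Ne.symm EC.hp2) hA hσ) (fun φ hφ => ?_)
  rw [C.det_frob H Nat.prime_two (Ne.symm EC.hp2) hA hφ]
  norm_num

namespace TwoData

variable {ρ : GQ →* M₂ R} {A : ValuationSubring Qbar} {φ τ : GQ}

theorem beta_smul_gen (D : TwoData ρ A φ τ) : beta2 ρ φ τ • (ρ τ - 1) = 0 := by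
  rw [beta2, z3, mul_smul]
  exact nine_sub_smul_Np D.rel D.detT D.detP D.two

theorem z3_smul_gen (D : TwoData ρ A φ τ) : z3 ρ τ • ((ρ τ - 1) * (ρ τ - 1)) = 0 := by
  rw [N_mul_N D.detT, smul_smul, z3, mul_comm,
    z_mul_z_add_three D.rel D.detT (by rw [D.detP]; exact D.two), zero_smul]

theorem rho_conj (ρ : GQ →* M₂ R) (g σ : GQ) :
    ρ σ - 1 = ρ g * (ρ (g⁻¹ * σ * g) - 1) * ρ g⁻¹ := by
  have h1 : ρ g * ρ g⁻¹ = 1 := by rw [← map_mul, mul_inv_cancel, map_one]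
  rw [mul_sub, sub_mul, mul_one, h1, ← map_mul, ← map_mul]
  congr 2
  group

/-- `β₂ (ρ σ - 1) = 0`, `σ` in the inertia group of ANY place above `2`. -/
theorem beta_smul (D : TwoData ρ A φ τ) {A' : ValuationSubring Qbar} (hA' : A'.LiesOverPrime 2)
    {σ : GQ} (hσ : σ ∈ A'.inertiaSubgroupIn ℚ) : beta2 ρ φ τ • (ρ σ - 1) = 0 := by
  obtain ⟨g, rfl⟩ := Bridge.exists_smul_eq Nat.prime_two D.hA hA'
  rw [Bridge.mem_inertia_smul_iff Nat.prime_two D.hA] at hσ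
  obtain ⟨n, hn⟩ := D.gen _ hσ
  rw [rho_conj ρ g σ, hn, pow_sub_one_eq, ← smul_mul_assoc, ← mul_smul_comm, ← smul_mul_assoc,
    D.beta_smul_gen, zero_mul, mul_zero, zero_mul]

/-- `(z₂ + 3)(ρ σ' - 1)(ρ σ - 1) = 0`, `σ σ'` in the inertia group of ANY place above `2`. -/
theorem z3_smul (D : TwoData ρ A φ τ) {A' : ValuationSubring Qbar} (hA' : A'.LiesOverPrime 2)
    {σ σ' : GQ} (hσ : σ ∈ A'.inertiaSubgroupIn ℚ) (hσ' : σ' ∈ A'.inertiaSubgroupIn ℚ) :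
    z3 ρ τ • ((ρ σ' - 1) * (ρ σ - 1)) = 0 := by
  obtain ⟨g, rfl⟩ := Bridge.exists_smul_eq Nat.prime_two D.hA hA'
  rw [Bridge.mem_inertia_smul_iff Nat.prime_two D.hA] at hσ hσ'
  obtain ⟨n, hn⟩ := D.gen _ hσ
  obtain ⟨n', hn'⟩ := D.gen _ hσ'
  have h1 : ρ g⁻¹ * ρ g = 1 := by rw [← map_mul, inv_mul_cancel, map_one]
  have hc : ∀ k : ℕ, (∑ i ∈ Finset.range k, ρ τ ^ i) * (ρ τ - 1)
      = (ρ τ - 1) * ∑ i ∈ Finset.range k, ρ τ ^ i := fun k => by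
    rw [mul_geom_sum, geom_sum_mul]
  have e : (ρ σ' - 1) * (ρ σ - 1) = ρ g * (((ρ τ - 1) * (ρ τ - 1)) *
      ((∑ i ∈ Finset.range n', ρ τ ^ i) * ∑ i ∈ Finset.range n, ρ τ ^ i)) * ρ g⁻¹ := by
    rw [rho_conj ρ g σ, rho_conj ρ g σ', hn, hn', pow_sub_one_eq, pow_sub_one_eq]
    calc ρ g * ((ρ τ - 1) * ∑ i ∈ Finset.range n', ρ τ ^ i) * ρ g⁻¹ *
          (ρ g * ((ρ τ - 1) * ∑ i ∈ Finset.range n, ρ τ ^ i) * ρ g⁻¹)
        = ρ g * ((ρ τ - 1) * ∑ i ∈ Finset.range n', ρ τ ^ i) * (ρ g⁻¹ * ρ g) *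
          ((ρ τ - 1) * ∑ i ∈ Finset.range n, ρ τ ^ i) * ρ g⁻¹ := by noncomm_ring
      _ = ρ g * ((ρ τ - 1) * ((∑ i ∈ Finset.range n', ρ τ ^ i) * (ρ τ - 1)) *
          ∑ i ∈ Finset.range n, ρ τ ^ i) * ρ g⁻¹ := by rw [h1]; noncomm_ring
      _ = _ := by rw [hc]; noncomm_ring
  rw [e, ← smul_mul_assoc, ← mul_smul_comm, ← smul_mul_assoc, D.z3_smul_gen, zero_mul, mul_zero,
    zero_mul]

/-! ### the Galois form -/

section Act

variable {V : Type} [AddCommGroup V] [Module R V] [DistribMulAction GQ V]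
  {Φ : M₂ R →ₐ[R] Module.End R V}

theorem gal_beta (D : TwoData ρ A φ τ) (H : RhoAct ρ Φ) {A' : ValuationSubring Qbar}
    (hA' : A'.LiesOverPrime 2) {σ : GQ} (hσ : σ ∈ A'.inertiaSubgroupIn ℚ) (x : V) :
    σ • (beta2 ρ φ τ • x) = beta2 ρ φ τ • x := by
  have h := congrArg (fun M => Φ M x) (D.beta_smul hA' hσ)
  simp only [map_smul, map_zero, LinearMap.smul_apply, LinearMap.zero_apply] at h
  rw [← map_smul, H.phi_sub_one, sub_eq_zero] at h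
  exact h

theorem gal_z3 (D : TwoData ρ A φ τ) (H : RhoAct ρ Φ) {A' : ValuationSubring Qbar}
    (hA' : A'.LiesOverPrime 2) {σ σ' : GQ} (hσ : σ ∈ A'.inertiaSubgroupIn ℚ)
    (hσ' : σ' ∈ A'.inertiaSubgroupIn ℚ) (x : V) :
    σ' • (σ • (z3 ρ τ • x) - z3 ρ τ • x) = σ • (z3 ρ τ • x) - z3 ρ τ • x := by
  have h := congrArg (fun M => Φ M x) (D.z3_smul hA' hσ hσ')
  simp only [map_smul, map_zero, LinearMap.smul_apply, LinearMap.zero_apply] at h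
  rw [← map_smul, map_mul, Module.End.mul_apply, H.phi_sub_one, H.phi_sub_one, sub_eq_zero] at h
  exact h

/-- `β₂ V` is unramified at `2`. -/
theorem locUr (D : TwoData ρ A φ τ) (H : RhoAct ρ Φ) :
    LocUr 2 (Set.range fun x : V => beta2 ρ φ τ • x) := by
  rintro A' hA' σ hσ _ ⟨x, rfl⟩
  exact D.gal_beta H hA' hσ x

/-- inertia at `2` is unipotent on `(z₂ + 3) V`. -/
theorem locUnip (D : TwoData ρ A φ τ) (H : RhoAct ρ Φ) :
    LocUnip 2 (Set.range fun x : V => z3 ρ τ • x) := by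
  rintro A' hA' σ hσ σ' hσ' _ ⟨x, rfl⟩
  exact D.gal_z3 H hA' hσ hσ' x

/-- the VALUE of `z₂ + 3` : `3`, where `τ` is unipotent. -/
theorem z3_smul_eq (D : TwoData ρ A φ τ) (H : RhoAct ρ Φ) {x : V}
    (hx : τ • (τ • x - x) = τ • x - x) : z3 ρ τ • x = (3 : ℕ) • x := by
  have h1 := H.z_smul D.detT x
  have h2 : τ⁻¹ • x = (2 : ℕ) • x - τ • x := by
    have := congrArg (fun y => τ⁻¹ • y) hx
    simp only [inv_smul_smul, smul_sub] at this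
    generalize τ⁻¹ • x = y at this ⊢
    generalize τ • x = w at this ⊢
    rw [two_nsmul, eq_sub_iff_add_eq]
    have h5 : w - x + x + y = x - y + x + y := by rw [this]
    rw [sub_add_cancel] at h5
    rw [add_comm, h5]
    abel
  rw [h2] at h1
  have h3 : ((ρ τ).trace - 2) • x = 0 := by rw [h1]; abel
  have e : z3 ρ τ = ((ρ τ).trace - 2) + ((3 : ℕ) : R) := by rw [z3]; push_cast; ring
  rw [e, add_smul, h3, zero_add, Nat.cast_smul_eq_nsmul]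

/-- the VALUE of `β₂` : `3 (9 - a²)`, where `τ` is unipotent and `tr ρ(φ) = a`. -/
theorem beta_smul_eq (D : TwoData ρ A φ τ) (H : RhoAct ρ Φ) {x : V}
    (hx : τ • (τ • x - x) = τ • x - x) (a : ℤ) (ha : (ρ φ).trace • x = a • x) :
    beta2 ρ φ τ • x = (3 * (9 - a ^ 2)) • x := by
  have h1 : ((ρ φ).trace ^ 2) • x = (a ^ 2) • x := by
    rw [pow_two, mul_smul, ha, smul_comm, ha, smul_smul, pow_two]
  have h2 : (9 - (ρ φ).trace ^ 2) • x = (9 - a ^ 2) • x := by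
    rw [sub_smul, sub_smul, h1, ← Int.cast_smul_eq_zsmul R (9 : ℤ) x]
    norm_num
  rw [beta2, mul_smul, D.z3_smul_eq H hx, smul_comm, h2, mul_smul]
  simpa using (natCast_zsmul ((9 - a ^ 2) • x) 3).symm

end Act

/-! ### the same for `Rho.IsRhoK`, in `J₀(L)` -/

section RhoK

open ModularCurve

variable {L m : ℕ} [NeZero L] [NeZero m] [Algebra (ZMod m) R] {X : AddSubgroup (JZero L)}
  [Module R ↥X] {rE : GQ →* M₂ (ZMod m)} {πE : R →ₐ[ZMod m] ZMod m}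
  {Φ : M₂ R →ₐ[R] Module.End R ↥X}

theorem coe_phi_sub_one (H : Rho.IsRhoK L m X rE πE ρ Φ) (g : GQ) (x : ↥X) :
    ((Φ (ρ g - 1) x : ↥X) : JZero L) = g • (x : JZero L) - x := by
  rw [map_sub, map_one, LinearMap.sub_apply, Module.End.one_apply, AddSubgroup.coe_sub, H.act]

theorem gal_beta_K (D : TwoData ρ A φ τ) (H : Rho.IsRhoK L m X rE πE ρ Φ)
    {A' : ValuationSubring Qbar} (hA' : A'.LiesOverPrime 2) {σ : GQ}
    (hσ : σ ∈ A'.inertiaSubgroupIn ℚ) (x : ↥X) :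
    σ • ((beta2 ρ φ τ • x : ↥X) : JZero L) = ((beta2 ρ φ τ • x : ↥X) : JZero L) := by
  have h := congrArg (fun M => Φ M x) (D.beta_smul hA' hσ)
  simp only [map_smul, map_zero, LinearMap.smul_apply, LinearMap.zero_apply] at h
  rw [← map_smul] at h
  have h' := congrArg (fun y : ↥X => (y : JZero L)) h
  simp only [coe_phi_sub_one H, AddSubgroup.coe_zero] at h'
  exact sub_eq_zero.1 h'

theorem gal_z3_K (D : TwoData ρ A φ τ) (H : Rho.IsRhoK L m X rE πE ρ Φ)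
    {A' : ValuationSubring Qbar} (hA' : A'.LiesOverPrime 2) {σ σ' : GQ}
    (hσ : σ ∈ A'.inertiaSubgroupIn ℚ) (hσ' : σ' ∈ A'.inertiaSubgroupIn ℚ) (x : ↥X) :
    σ' • (σ • ((z3 ρ τ • x : ↥X) : JZero L) - ((z3 ρ τ • x : ↥X) : JZero L))
      = σ • ((z3 ρ τ • x : ↥X) : JZero L) - ((z3 ρ τ • x : ↥X) : JZero L) := by
  have h := congrArg (fun M => Φ M x) (D.z3_smul hA' hσ hσ')
  simp only [map_smul, map_zero, LinearMap.smul_apply, LinearMap.zero_apply] at h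
  rw [← map_smul, map_mul, Module.End.mul_apply] at h
  have h' := congrArg (fun y : ↥X => (y : JZero L)) h
  simp only [coe_phi_sub_one H, AddSubgroup.coe_zero] at h'
  exact sub_eq_zero.1 h'

/-- `β₂ X` is unramified at `2`. -/
theorem locUr_K (D : TwoData ρ A φ τ) (H : Rho.IsRhoK L m X rE πE ρ Φ) :
    LocUr 2 (Set.range fun x : ↥X => ((beta2 ρ φ τ • x : ↥X) : JZero L)) := by
  rintro A' hA' σ hσ _ ⟨x, rfl⟩
  exact D.gal_beta_K H hA' hσ x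

/-- inertia at `2` is unipotent on `(z₂ + 3) X`. -/
theorem locUnip_K (D : TwoData ρ A φ τ) (H : Rho.IsRhoK L m X rE πE ρ Φ) :
    LocUnip 2 (Set.range fun x : ↥X => ((z3 ρ τ • x : ↥X) : JZero L)) := by
  rintro A' hA' σ hσ σ' hσ' _ ⟨x, rfl⟩
  exact D.gal_z3_K H hA' hσ hσ' x

/-- the VALUE of `z₂ + 3`. -/
theorem z3_smul_eq_K (D : TwoData ρ A φ τ) (H : Rho.IsRhoK L m X rE πE ρ Φ) {x : ↥X}
    (hx : τ • (τ • (x : JZero L) - x) = τ • (x : JZero L) - x) : z3 ρ τ • x = (3 : ℕ) • x := by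
  have h0 : Φ ((ρ τ - 1) * (ρ τ - 1)) x = 0 := by
    apply Subtype.ext
    rw [map_mul, Module.End.mul_apply, coe_phi_sub_one H, coe_phi_sub_one H, hx, sub_self]
    rfl
  rw [N_mul_N D.detT, map_smul, LinearMap.smul_apply] at h0
  have h1 : ρ τ⁻¹ * ρ τ = 1 := by rw [← map_mul, inv_mul_cancel, map_one]
  have h3 : ((ρ τ).trace - 2) • x = 0 := by
    have := congrArg (fun y => Φ (ρ τ⁻¹) y) h0
    simp only [map_smul, map_zero] at this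
    rwa [← Module.End.mul_apply, ← map_mul, h1, map_one, Module.End.one_apply] at this
  have e : z3 ρ τ = ((ρ τ).trace - 2) + ((3 : ℕ) : R) := by rw [z3]; push_cast; ring
  rw [e, add_smul, h3, zero_add, Nat.cast_smul_eq_nsmul]

/-- the VALUE of `β₂`. -/
theorem beta_smul_eq_K (D : TwoData ρ A φ τ) (H : Rho.IsRhoK L m X rE πE ρ Φ) {x : ↥X}
    (hx : τ • (τ • (x : JZero L) - x) = τ • (x : JZero L) - x) (a : ℤ)
    (ha : (ρ φ).trace • x = a • x) : beta2 ρ φ τ • x = (3 * (9 - a ^ 2)) • x := by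
  have h1 : ((ρ φ).trace ^ 2) • x = (a ^ 2) • x := by
    rw [pow_two, mul_smul, ha, smul_comm, ha, smul_smul, pow_two]
  have h2 : (9 - (ρ φ).trace ^ 2) • x = (9 - a ^ 2) • x := by
    rw [sub_smul, sub_smul, h1, ← Int.cast_smul_eq_zsmul R (9 : ℤ) x]
    norm_num
  rw [beta2, mul_smul, D.z3_smul_eq_K H hx, smul_comm, h2, mul_smul]
  simpa using (natCast_zsmul ((9 - a ^ 2) • x) 3).symm

end RhoK

end TwoData

end Fermat.Agent.ML.At2.Loc
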