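import Fermat.Agent.ML.Gen.OfRho
import Fermat.Agent.ML.Rho.TameK

/-!
# ML / At2 / Loc / Strict2 : `strict` at a prime `v` where the stage module is UNRAMIFIED and `rbar0 (Φ_v)` is NOT scalar   ([CELL-2], mixed case)

`X = ρ(Φ_v)`.  A cyclic vector of `X` modulo `ker π0` gives `M` (invertible modulo `ker π0`) with `M X = C M`,
`C = [[0, - det X], [1, tr X]]` the companion matrix (an identity of polynomials: no inverse, no Hensel).
So modulo `J ∋ tr X - a` (`a : ℤ`), `det X = d : ℤ`, `X` is conjugate to a CONSTANT matrix.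

* `companion_mul`, `exists_companion` : the algebra.
* `conjConst_companion`, `conjConst_of_ent` : `ConjConst ℤ J M`.
* `strict_of_ur` : the field `hstrict` of `GenHypMZ.of_act` at `v`, `J = Ann_R(G) ⊔ I`, `I_v` trivial on `G`, `tr ρ(Φ_v) - a ∈ J`.
-/

set_option autoImplicit false

noncomputable section

open ExtCitation

namespace Fermat.Agent.ML.At2.Loc

open Fermat.Agent.RIB Fermat.Agent.S56 Fermat.Agent.S56.Gen
open CFT (decomp Qb)

section Alg

variable {R : Type} [CommRing R]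

/-- the adjugate of `[e | X e]`, `e = (x, y)`. -/
def cycM (X : M2 R) (x y : R) : M2 R :=
  !![X 1 0 * x + X 1 1 * y, -(X 0 0 * x + X 0 1 * y); -y, x]

/-- the companion matrix. -/
def compM (d t : R) : M2 R := !![0, -d; 1, t]

theorem companion_mul (X : M2 R) (x y : R) :
    cycM X x y * X = compM X.det X.trace * cycM X x y := by
  ext i j
  fin_cases i <;> fin_cases j <;>
    simp [cycM, compM, Matrix.mul_apply, Fin.sum_univ_two, Matrix.trace_fin_two,
      Matrix.det_fin_two] <;> ring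

theorem det_cycM (X : M2 R) (x y : R) :
    (cycM X x y).det = X 1 0 * x ^ 2 + (X 1 1 - X 0 0) * x * y - X 0 1 * y ^ 2 := by
  simp [cycM, Matrix.det_fin_two]
  ring

/-- a non scalar matrix over a field has a cyclic vector. -/
theorem exists_companion {k : Type} [Field k] (π0 : R →+* k) (X : M2 R)
    (hns : ∀ c : k, X.map π0 ≠ c • (1 : M2 k)) :
    ∃ M : M2 R, IsUnit (M.map π0) ∧ M * X = compM X.det X.trace * M := by
  have key : ∀ x y : R, π0 ((cycM X x y).det) ≠ 0 → IsUnit ((cycM X x y).map π0) := by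
    intro x y h
    have e : ((cycM X x y).map π0) = π0.mapMatrix (cycM X x y) := rfl
    rw [e, Matrix.isUnit_iff_isUnit_det, ← RingHom.map_det]
    exact isUnit_iff_ne_zero.2 h
  by_cases h10 : π0 (X 1 0) = 0
  · by_cases h01 : π0 (X 0 1) = 0
    · refine ⟨cycM X 1 1, key 1 1 ?_, companion_mul X 1 1⟩
      rw [det_cycM]
      intro h
      simp only [one_pow, mul_one, map_sub, map_add, h10, h01, zero_add, sub_zero] at h
      refine hns (π0 (X 0 0)) ?_
      ext i j
      fin_cases i <;> fin_cases j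
      · simp
      · simpa using h01
      · simpa using h10
      · simpa using sub_eq_zero.1 h
    · refine ⟨cycM X 0 1, key 0 1 ?_, companion_mul X 0 1⟩
      rw [det_cycM]
      simpa using h01
  · refine ⟨cycM X 1 0, key 1 0 ?_, companion_mul X 1 0⟩
    rw [det_cycM]
    simpa using h10

theorem conjConst_companion {J : Ideal R} {M X : M2 R}
    (hM : M * X = compM X.det X.trace * M) (d a : ℤ) (hd : X.det = (d : R))
    (ha : X.trace - (a : R) ∈ J) : ConjConst ℤ J M X := by
  refine ⟨!![0, -d; 1, a], fun i l => ?_⟩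
  have e : (!![0, -d; 1, a] : M2 ℤ).map (algebraMap ℤ R) = compM (d : R) (a : R) := by
    ext i j
    fin_cases i <;> fin_cases j <;> simp [compM]
  rw [e, hM, hd, ← sub_mul]
  have e2 : compM (d : R) X.trace - compM (d : R) (a : R) = !![0, 0; 0, X.trace - (a : R)] := by
    ext i j
    fin_cases i <;> fin_cases j <;> simp [compM]
  rw [e2]
  fin_cases i <;> simp [Matrix.mul_apply, Fin.sum_univ_two]
  exact J.mul_mem_right _ ha

theorem conjConst_of_ent {J : Ideal R} (M : M2 R) {X : M2 R} (hX : ∀ i l, (X - 1) i l ∈ J) :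
    ConjConst ℤ J M X := by
  refine ⟨1, fun i l => ?_⟩
  have e : (1 : M2 ℤ).map (algebraMap ℤ R) = 1 := map_one (algebraMap ℤ R).mapMatrix
  rw [e, one_mul, show M * X - M = M * (X - 1) by rw [mul_sub, mul_one], Matrix.mul_apply]
  exact J.sum_mem fun j _ => J.mul_mem_left _ (hX j l)

end Alg

section Act

variable {p : ℕ} [Fact p.Prime] {R V : Type} [CommRing R] [AddCommGroup V] [Module R V]
  [DistribMulAction GQ V] {ρ : GQ →* M2 R} {Φ : M2 R →ₐ[R] Module.End R V}

/-- **`strict` at `v`** : the stage module `G` is unramified at `v`, `rbar0 (Φ_v)` is not scalar, and `tr ρ(Φ_v) - a ∈ J`. -/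
theorem strict_of_ur (H : RhoAct ρ Φ) (hadj : Algebra.adjoin R (Set.range ρ) = ⊤)
    (hcont : GaloisFactorsThroughFiniteLevel ρ) {π0 : R →+* ZMod p} (v : Nat.Primes) (N : ℕ)
    (hN : Nat.Coprime N (v : ℕ)) (htors : ∀ σ ∈ inert v, ρ σ ^ N = 1)
    (G : Submodule R V) (hG : ∀ g : GQ, ∀ x ∈ G, g • x ∈ G)
    (hur : ∀ σ ∈ inert v, ∀ x ∈ G, σ • x = x) {φ : GQ}
    (hφ : (primeLocalPlace v).IsFrobeniusAt φ (v : ℕ))
    (hns : ∀ c : ZMod p, (ρ φ).map π0 ≠ c • (1 : M2 (ZMod p))) (d a : ℤ)
    (hd : (ρ φ).det = (d : R)) (I : Ideal R) (ha : (ρ φ).trace - (a : R) ∈ G.annihilator ⊔ I) :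
    ∃ M : M2 R, IsUnit (M.map π0) ∧ ∀ σ ∈ decomp v, ConjConst ℤ (G.annihilator ⊔ I) M (ρ σ) := by
  obtain ⟨M, hM, hMX⟩ := exists_companion π0 (ρ φ) hns
  refine ⟨M, hM, conjConst_of_gens hcont v N hN htors (fun σ hσ => ?_) hφ
    (conjConst_companion hMX d a hd ha)⟩
  refine conjConst_of_ent M fun i l => Ideal.mem_sup_left ?_
  refine H.entry_mem_ann hadj G hG (fun y hy => ?_) i l
  rw [H.phi_sub_one, hur σ hσ y hy, sub_self]

end Act

end Fermat.Agent.ML.At2.Loc
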