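import Fermat.Agent.ML.At2.Loc.Alg
import Fermat.Agent.ML.Gen.OfRho
import Fermat.Agent.ML.Main.LocCalc

/-!
# ML / At2 / Loc / Two : generic tools for the prime `2` inside a step   ([CELL-2])

(`TwoData`, the multipliers `z3`, `beta2` and the cases [U], [R] are in helper48's `Out2.lean`; the case [S] is in `TwoSt.lean`.)

* `smul_pow_sub_one`, `smul_mul_pow_sub_one`, `smul_pow_sub_one_mul` : from a generator of inertia to its powers.
* `inv_mul_mem_inertia` : two Frobenius elements of a place differ by inertia.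
* `locSt_of_one_frob` : the identities of `LocSt` for ONE Frobenius and `LocUnip` give them for all the Frobenius elements, all places.
* `gal_smul_comm`, `range_smul_stable`, `phi_smul_eq_zero_of_dvd`.
* `strict_companion` (second source of `strict_of_ur`).
-/

set_option autoImplicit false

noncomputable section

open ExtCitation

namespace Fermat.Agent.ML.At2.Loc

open Fermat.Agent.RIB Fermat.Agent.S56 Fermat.Agent.S56.Gen Fermat.Agent.ML
open CFT (decomp)
open scoped Pointwise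

local notation "Qbar" => AlgebraicClosure ℚ

/-! ### powers of a generator -/

section Pow

variable {R : Type*} [CommRing R] {Tu : Matrix (Fin 2) (Fin 2) R}

theorem smul_pow_sub_one {c : R} (h : c • (Tu - 1) = 0) (n : ℕ) : c • (Tu ^ n - 1) = 0 := by
  rw [pow_sub_one_eq, ← smul_mul_assoc, h, zero_mul]

theorem smul_mul_pow_sub_one {c : R} {X : Matrix (Fin 2) (Fin 2) R} (h : c • (X * (Tu - 1)) = 0)
    (n : ℕ) : c • (X * (Tu ^ n - 1)) = 0 := by
  rw [pow_sub_one_eq, ← mul_assoc, ← smul_mul_assoc, h, zero_mul]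

theorem smul_pow_sub_one_mul {c : R} {X : Matrix (Fin 2) (Fin 2) R} (h : c • ((Tu - 1) * X) = 0)
    (n : ℕ) : c • ((Tu ^ n - 1) * X) = 0 := by
  rw [← geom_sum_mul, mul_assoc, ← mul_smul_comm, h, mul_zero]

end Pow

/-! ### two Frobenius elements differ by inertia -/

theorem inv_mul_mem_inertia {A : ValuationSubring Qbar} {q : ℕ} (hq : q.Prime)
    (hA : A.LiesOverPrime q) {φ σ : GQ} (hφ : A.IsFrobeniusAt φ q) (hσ : A.IsFrobeniusAt σ q) :
    φ⁻¹ * σ ∈ A.inertiaSubgroupIn ℚ := by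
  rw [Bridge.mem_inertia_iff hq hA]
  intro b
  have h1 := Bridge.sub_pow_mem_centre_of_isFrobeniusAt hσ b
  have h2 := Bridge.sub_pow_mem_centre_of_isFrobeniusAt hφ b
  have h3 : σ • b - φ • b ∈ S54.centre A := by
    have := Ideal.sub_mem _ h1 h2
    rwa [sub_sub_sub_cancel_right] at this
  have h4 : φ⁻¹ • S54.centre A = S54.centre A :=
    Bridge.smul_centre_of_mem_decomposition
      ((A.decompositionSubgroup ℚ).inv_mem hφ.mem_decompositionSubgroup)
  have h5 : φ⁻¹ • (σ • b - φ • b) ∈ φ⁻¹ • S54.centre A :=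
    Ideal.smul_mem_pointwise_smul _ _ _ h3
  rw [h4, smul_sub, inv_smul_smul, ← mul_smul] at h5
  exact h5

/-- the identities of `LocSt` for one Frobenius, together with unipotence, give them for every Frobenius of the same place. -/
theorem locSt_of_one_frob {X : Type*} [AddCommGroup X] [DistribMulAction GQ X] {q : ℕ}
    (hq : q.Prime) {ε : ℤ} {G : Set X} (hG : ∀ g : GQ, ∀ x ∈ G, g • x ∈ G)
    (A : ValuationSubring Qbar) (hA : A.LiesOverPrime q) {φ : GQ} (hφ : A.IsFrobeniusAt φ q)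
    (hun : ∀ τ ∈ A.inertiaSubgroupIn ℚ, ∀ τ' ∈ A.inertiaSubgroupIn ℚ, ∀ x ∈ G,
      τ' • (τ • x - x) = τ • x - x)
    (h1 : ∀ τ ∈ A.inertiaSubgroupIn ℚ, ∀ x ∈ G, φ • (τ • x - x) = (ε * q) • (τ • x - x))
    (h2 : ∀ τ ∈ A.inertiaSubgroupIn ℚ, ∀ x ∈ G, τ • (φ • x - ε • x) = φ • x - ε • x)
    (h3 : ∀ x ∈ G, φ • (φ • x - ε • x) = (ε * q) • (φ • x - ε • x)) : LocSt q ε G := by
  refine LocSt.of_place hq hG A hA fun σ hσ τ hτ x hx => ?_
  set ι : GQ := φ⁻¹ * σ with hι
  have hιI : ι ∈ A.inertiaSubgroupIn ℚ := inv_mul_mem_inertia hq hA hφ hσ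
  have hσι : σ = φ * ι := by rw [hι, mul_inv_cancel_left]
  -- `σ x - ε x = (ε q) (ι x - x) + (φ x - ε x)`
  have e0 : σ • x - ε • x = (ε * q) • (ι • x - x) + (φ • x - ε • x) := by
    rw [← h1 ι hιI x hx, hσι, mul_smul, smul_sub]
    abel
  have e1 : ∀ y : X, ι • y = y → σ • y = φ • y := fun y hy => by rw [hσι, mul_smul, hy]
  refine ⟨?_, ?_, ?_⟩
  · rw [e1 _ (hun τ hτ ι hιI x hx), h1 τ hτ x hx]
  · rw [e0, smul_add, h2 τ hτ x hx, smul_comm τ, hun ι hιI τ hτ x hx]
  · rw [e0, smul_add, smul_comm σ, e1 _ (hun ι hιI ι hιI x hx), h1 ι hιI x hx,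
      e1 _ (h2 ι hιI x hx), h3 x hx, smul_add]

/-! ### the action -/

section Act

variable {R V : Type} [CommRing R] [AddCommGroup V] [Module R V] [DistribMulAction GQ V]
  {ρ : GQ →* M2 R} {Φ : M2 R →ₐ[R] Module.End R V}

/-- the Galois action is `R`-linear. -/
theorem gal_smul_comm (H : RhoAct ρ Φ) (g : GQ) (r : R) (x : V) : g • (r • x) = r • (g • x) := by
  rw [← H.act, ← H.act, map_smul]

theorem range_smul_stable (H : RhoAct ρ Φ) (β : R) (g : GQ) :
    ∀ x ∈ Set.range (fun x : V => β • x), g • x ∈ Set.range (fun x : V => β • x) := by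
  rintro _ ⟨x, rfl⟩
  exact ⟨g • x, (gal_smul_comm H g β x).symm⟩

omit [DistribMulAction GQ V] in
/-- a matrix killed by `c` kills `c V`. -/
theorem phi_smul_eq_zero {c : R} {X : M2 R} (h : c • X = 0) (x : V) : Φ X (c • x) = 0 := by
  rw [map_smul, ← LinearMap.smul_apply, ← map_smul, h, map_zero, LinearMap.zero_apply]

omit [DistribMulAction GQ V] in
theorem phi_smul_eq_zero_of_dvd {c β : R} (hβ : c ∣ β) {X : M2 R} (h : c • X = 0) (x : V) :
    Φ X (β • x) = 0 := by
  obtain ⟨d, rfl⟩ := hβ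
  rw [mul_smul]
  exact phi_smul_eq_zero h _

end Act

/-! ### `strict` by the companion matrix -/

section Companion

variable {R : Type} [CommRing R]

/-- the matrix with rows `e`, `e X`. -/
def rowsMat (e0 e1 : R) (X : M2 R) : M2 R :=
  !![e0, e1; e0 * X 0 0 + e1 * X 1 0, e0 * X 0 1 + e1 * X 1 1]

/-- `M X = C M + (tr X - a) [0; e X]`. -/
theorem rowsMat_mul (e0 e1 : R) (X : M2 R) (a d : ℤ) (hd : X.det = (d : R)) :
    rowsMat e0 e1 X * X - (!![0, 1; -d, a] : M2 ℤ).map (algebraMap ℤ R) * rowsMat e0 e1 X =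
      (X.trace - (a : R)) • !![0, 0; e0 * X 0 0 + e1 * X 1 0, e0 * X 0 1 + e1 * X 1 1] := by
  rw [Matrix.det_fin_two] at hd
  ext i j
  fin_cases i <;> fin_cases j <;>
    simp [rowsMat, Matrix.mul_apply, Fin.sum_univ_two, Matrix.trace_fin_two, Matrix.vecMul,
      dotProduct] <;>
    first | ring1 | linear_combination (-e0) * hd | linear_combination (-e1) * hd

theorem det_rowsMat (e0 e1 : R) (X : M2 R) :
    (rowsMat e0 e1 X).det = e0 * e0 * X 0 1 + e0 * e1 * (X 1 1 - X 0 0) - e1 * e1 * X 1 0 := by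
  rw [rowsMat, Matrix.det_fin_two_of]
  ring

/-- a non scalar matrix over a field has a cyclic vector among `(1,0)`, `(0,1)`, `(1,1)`. -/
theorem exists_cyclic {k : Type} [Field k] (X : M2 k) (hns : ∀ c : k, X ≠ c • (1 : M2 k)) :
    ∃ e0 e1 : ℤ, (rowsMat (e0 : k) (e1 : k) X).det ≠ 0 := by
  by_contra hcon
  push Not at hcon
  have h10 := hcon 1 0
  have h01 := hcon 0 1
  have h11 := hcon 1 1
  rw [det_rowsMat] at h10 h01 h11
  simp only [Int.cast_one, Int.cast_zero, one_mul, mul_zero, zero_mul, add_zero, sub_zero,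
    zero_sub, neg_eq_zero, mul_one] at h10 h01 h11
  rw [h10, h01, zero_add, sub_zero, sub_eq_zero] at h11
  refine hns (X 0 0) ?_
  ext i j
  fin_cases i <;> fin_cases j <;> simp [h10, h01, h11]

end Companion

section Strict

variable {p : ℕ} [Fact p.Prime] {rbar0 : GQ →* M2 (ZMod p)}
  {R V : Type} [CommRing R] [AddCommGroup V] [Module R V] [DistribMulAction GQ V]
  {ρ : GQ →* M2 R} {Φ : M2 R →ₐ[R] Module.End R V}

/-- **`strict` at a prime `v` where `G` is unramified, the residual Frobenius is not scalar and the trace of Frobenius is constant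
modulo `Ann G ⊔ I`** : `ρ|D_v` is conjugate modulo `Ann G ⊔ I` to the representation `φ ↦` companion matrix of `X² - a X + d`. -/
theorem strict_companion (H : RhoAct ρ Φ) (hadj : Algebra.adjoin R (Set.range ρ) = ⊤)
    {π0 : R →+* ZMod p} (hlift : ∀ σ, (ρ σ).map π0 = rbar0 σ)
    (hcont : GaloisFactorsThroughFiniteLevel ρ) (v : Nat.Primes) (N : ℕ)
    (hN : Nat.Coprime N (v : ℕ)) (htors : ∀ σ ∈ inert v, ρ σ ^ N = 1)
    (G : Submodule R V) (hG : ∀ g : GQ, ∀ x ∈ G, g • x ∈ G) (I : Ideal R)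
    (hur : ∀ σ ∈ inert v, ∀ x ∈ G, σ • x = x) {φ : GQ}
    (hφ : (primeLocalPlace v).IsFrobeniusAt φ (v : ℕ))
    (hns : ∀ c : ZMod p, rbar0 φ ≠ c • (1 : M2 (ZMod p))) (a d : ℤ)
    (ha : (ρ φ).trace - (a : R) ∈ G.annihilator ⊔ I) (hd : (ρ φ).det = (d : R)) :
    ∃ M : M2 R, IsUnit (M.map π0) ∧ ∀ σ ∈ decomp v, ConjConst ℤ (G.annihilator ⊔ I) M (ρ σ) := by
  obtain ⟨e0, e1, he⟩ := exists_cyclic (rbar0 φ) hns
  refine ⟨rowsMat (e0 : R) (e1 : R) (ρ φ), ?_, ?_⟩
  · have e : (rowsMat (e0 : R) (e1 : R) (ρ φ)).map π0 =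
        rowsMat ((e0 : ℤ) : ZMod p) ((e1 : ℤ) : ZMod p) (rbar0 φ) := by
      rw [← hlift φ]
      ext i j
      fin_cases i <;> fin_cases j <;> simp [rowsMat]
    rw [e, Matrix.isUnit_iff_isUnit_det]
    exact isUnit_iff_ne_zero.2 he
  · refine conjConst_of_gens hcont v N hN htors (fun σ hσ => ⟨1, fun i l => ?_⟩) hφ
      ⟨!![0, 1; -d, a], fun i l => ?_⟩
    · have h1 : ∀ i l, (ρ σ - 1) i l ∈ G.annihilator ⊔ I := fun i l =>
        Ideal.mem_sup_left (H.entry_mem_ann hadj G hG (fun y hy => by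
          rw [H.phi_sub_one, hur σ hσ y hy, sub_self]) i l)
      have e : rowsMat (e0 : R) (e1 : R) (ρ φ) * ρ σ -
          (1 : M2 ℤ).map (algebraMap ℤ R) * rowsMat (e0 : R) (e1 : R) (ρ φ) =
          rowsMat (e0 : R) (e1 : R) (ρ φ) * (ρ σ - 1) := by
        have : (1 : M2 ℤ).map (algebraMap ℤ R) = 1 := map_one (algebraMap ℤ R).mapMatrix
        rw [this, one_mul, mul_sub, mul_one]
      rw [e, Matrix.mul_apply]
      exact Ideal.sum_mem _ fun k _ => Ideal.mul_mem_left _ _ (h1 k l)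
    · rw [rowsMat_mul _ _ _ a d hd, Matrix.smul_apply, smul_eq_mul]
      exact Ideal.mul_mem_right _ _ ha

end Strict

end Fermat.Agent.ML.At2.Loc
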