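import Fermat.Agent.ML.At2.Loc.Out2
import Fermat.Agent.ML.At2.Loc.Two
import Fermat.Agent.ML.Raise.RelState

/-!
# ML / At2 / Loc / TwoSt : the prime `2` inside a step, case [S] : `2 ∈ P` (`W` bad at `2`, already raised)   ([CELL-2])

Frame : `R` local with nilpotent maximal ideal, `H : RhoAct ρ Φ` on `V`, `D : TwoData ρ A φ τ` (helper48's `Out2.lean`).
`V` is NOT unipotent at `2` (`p = 3` : supercuspidal part), so `exists_stForm` is applied to `(ρ φ, 1 + N')`, `N' = (z₂ + 3)(ρ τ - 1)`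
(`N'² = 0`, `Φ N' = 2 N' Φ`).  It gives the eigenbasis `Q` of `ρ φ`.   `nM = Q' (ρ τ - 1) Q`, the VARIABLE is `b = nM 0 1`
(an entry of `N` itself : the entry `b' = (z₂ + 3) b` of `N'` lies in `(Ann G, 3)` for free), the MULTIPLIER is `b' = (z₂ + 3) b`.

* `TwoData.exists_stForm`;
* (RS-out) `TwoData.locSt_smul` : `b' ∣ β` ⟹ `LocSt 2 ε (β V)` and `LocUnip 2 (β V)`;
* (RS-in) `TwoData.ann_of_locSt` : `LocSt 2 ε G`, `LocUnip 2 G` ⟹ `c₂, z₂, nM 0 0, nM 1 0, nM 1 1 ∈ Ann G`;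
* (STRICT) `TwoData.strict_raised` : moreover `b ∈ I` ⟹ the field `hstrict` of `GenHypMZ.of_act` at `2`, `M = Q'`;
* (VALUE) `TwoData.bP_smul_eq` : `b x = c x` ⟹ `b' x = 3 c x`.
-/

set_option autoImplicit false

noncomputable section

open ExtCitation

namespace Fermat.Agent.ML.At2.Loc

open Fermat.Agent.RIB Fermat.Agent.S56 Fermat.Agent.S56.Gen Fermat.Agent.ML Fermat.Agent.ML.Raise
open CFT (decomp)

local notation "Qbar" => AlgebraicClosure ℚ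

variable {R : Type} [CommRing R] {ρ : GQ →* M2 R} {A : ValuationSubring Qbar} {φ τ : GQ}

/-- `1 + N'`, `N' = (z₂ + 3)(ρ τ - 1)`. -/
def tuP (ρ : GQ →* M2 R) (τ : GQ) : M2 R := 1 + z3 ρ τ • (ρ τ - 1)

/-- `ρ τ - 1` in the eigenbasis of `ρ φ`. -/
def nM (ρ : GQ →* M2 R) (τ : GQ) (Q Q' : M2 R) : M2 R := Q' * (ρ τ - 1) * Q

theorem tuP_sub_one : tuP ρ τ - 1 = z3 ρ τ • (ρ τ - 1) := by rw [tuP, add_sub_cancel_left]

/-- the Steinberg form of `(ρ φ, 1 + N')`. -/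
theorem TwoData.exists_stForm [IsLocalRing R] (D : TwoData ρ A φ τ)
    (hnil : ∀ z ∈ IsLocalRing.maximalIdeal R, IsNilpotent z) (ε : ℤ) (hε : ε * ε = 1)
    (htr : (ρ φ).trace - (ε : R) * (((2 : ℕ) : R) + 1) ∈ IsLocalRing.maximalIdeal R) :
    ∃ (f1 f2 b' g' : R) (Q Q' : M2 R), StForm (ρ φ) (tuP ρ τ) 2 (ε : R) f1 f2 b' g' Q Q' := by
  have hP : IsUnit (ρ φ).det := by rw [D.detP]; exact D.two
  have hNN : (z3 ρ τ • (ρ τ - 1)) * (z3 ρ τ • (ρ τ - 1)) = 0 := Np_mul_Np D.rel D.detT hP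
  have hPN : ρ φ * (z3 ρ τ • (ρ τ - 1)) = (2 : R) • ((z3 ρ τ • (ρ τ - 1)) * ρ φ) :=
    Ph_mul_Np D.rel D.detT hP
  refine Raise.exists_stForm hnil (ρ φ) (tuP ρ τ) 2 (ε : R) (by exact_mod_cast congrArg (Int.cast : ℤ → R) hε)
    D.two (by rw [Nat.cast_ofNat]; exact D.two) ?_ ?_ ?_ (by rw [D.detP, Nat.cast_ofNat]) htr
  · have : (1 : R) - ((2 : ℕ) : R) = -1 := by rw [Nat.cast_ofNat]; ring
    rw [this]
    exact isUnit_one.neg
  · rw [tuP]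
    generalize z3 ρ τ • (ρ τ - 1) = Y at hNN hPN
    rw [pow_two, mul_add, mul_one, hPN, add_mul, one_mul, mul_add, mul_one, hNN, add_zero, add_mul,
      add_mul, one_mul, two_smul, add_assoc]
  · rw [tuP_sub_one, hNN]

section Form

variable {ε : ℤ} {f1 f2 b' g' : R} {Q Q' : M2 R}

theorem z3_smul_nM (F : StForm (ρ φ) (tuP ρ τ) 2 (ε : R) f1 f2 b' g' Q Q') :
    z3 ρ τ • nM ρ τ Q Q' = !![0, b'; g', 0] := by
  have h := F.tu_sub
  rw [tuP_sub_one] at h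
  rw [nM, ← smul_mul_assoc, ← mul_smul_comm, h]
  calc Q' * (Q * !![0, b'; g', 0] * Q') * Q = (Q' * Q) * !![0, b'; g', 0] * (Q' * Q) := by
        simp only [mul_assoc]
    _ = _ := by rw [F.Q'Q, one_mul, mul_one]

theorem N_eq (F : StForm (ρ φ) (tuP ρ τ) 2 (ε : R) f1 f2 b' g' Q Q') :
    ρ τ - 1 = Q * nM ρ τ Q Q' * Q' := by
  rw [nM]
  calc ρ τ - 1 = (Q * Q') * (ρ τ - 1) * (Q * Q') := by rw [F.QQ', one_mul, mul_one]
    _ = _ := by simp only [mul_assoc]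

theorem e00 (F : StForm (ρ φ) (tuP ρ τ) 2 (ε : R) f1 f2 b' g' Q Q') :
    z3 ρ τ * nM ρ τ Q Q' 0 0 = 0 := by
  simpa using congrFun (congrFun (z3_smul_nM F) 0) 0

theorem e01 (F : StForm (ρ φ) (tuP ρ τ) 2 (ε : R) f1 f2 b' g' Q Q') :
    z3 ρ τ * nM ρ τ Q Q' 0 1 = b' := by
  simpa using congrFun (congrFun (z3_smul_nM F) 0) 1

theorem e10 (F : StForm (ρ φ) (tuP ρ τ) 2 (ε : R) f1 f2 b' g' Q Q') :
    z3 ρ τ * nM ρ τ Q Q' 1 0 = g' := by
  simpa using congrFun (congrFun (z3_smul_nM F) 1) 0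

theorem e11 (F : StForm (ρ φ) (tuP ρ τ) 2 (ε : R) f1 f2 b' g' Q Q') :
    z3 ρ τ * nM ρ τ Q Q' 1 1 = 0 := by
  simpa using congrFun (congrFun (z3_smul_nM F) 1) 1

theorem bP_mul_n00 (F : StForm (ρ φ) (tuP ρ τ) 2 (ε : R) f1 f2 b' g' Q Q') :
    b' * nM ρ τ Q Q' 0 0 = 0 := by
  rw [← e01 F]; linear_combination nM ρ τ Q Q' 0 1 * e00 F

theorem bP_mul_n11 (F : StForm (ρ φ) (tuP ρ τ) 2 (ε : R) f1 f2 b' g' Q Q') :
    b' * nM ρ τ Q Q' 1 1 = 0 := by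
  rw [← e01 F]; linear_combination nM ρ τ Q Q' 0 1 * e11 F

theorem bP_mul_n10 (D : TwoData ρ A φ τ) (F : StForm (ρ φ) (tuP ρ τ) 2 (ε : R) f1 f2 b' g' Q Q') :
    b' * nM ρ τ Q Q' 1 0 = 0 := by
  have h1 : z3 ρ τ • (nM ρ τ Q Q' * nM ρ τ Q Q') = 0 := by
    have e : nM ρ τ Q Q' * nM ρ τ Q Q' = Q' * ((ρ τ - 1) * (ρ τ - 1)) * Q := by
      rw [nM]
      calc Q' * (ρ τ - 1) * Q * (Q' * (ρ τ - 1) * Q) = Q' * (ρ τ - 1) * (Q * Q') * (ρ τ - 1) * Q := by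
            simp only [mul_assoc]
        _ = _ := by rw [F.QQ', mul_one]; simp only [mul_assoc]
    rw [e, ← smul_mul_assoc, ← mul_smul_comm, D.z3_smul_gen, mul_zero, zero_mul]
  rw [← smul_mul_assoc, z3_smul_nM F] at h1
  simpa [Matrix.mul_apply, Fin.sum_univ_two] using congrFun (congrFun h1 0) 0

theorem f1bP (F : StForm (ρ φ) (tuP ρ τ) 2 (ε : R) f1 f2 b' g' Q Q') :
    (f1 - (ε : R) * ((2 : ℕ) : R)) * b' = 0 := F.f1b

theorem f2bP (F : StForm (ρ φ) (tuP ρ τ) 2 (ε : R) f1 f2 b' g' Q Q') : (f2 - (ε : R)) * b' = 0 := by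
  obtain ⟨w, hw⟩ := Ideal.mem_span_singleton'.1 F.m2
  rw [← hw, mul_assoc, mul_comm _ b', F.bc, mul_zero]

omit [CommRing R] in
theorem conj_zero_aux {R : Type} [CommRing R] {c : R} {X Q Q' : M2 R} (h : c • X = 0) :
    c • (Q * X * Q') = 0 := by
  rw [← smul_mul_assoc, ← mul_smul_comm, h, mul_zero, zero_mul]

/-- (ii) `b' (ρ φ - 2 ε)(ρ τ - 1) = 0`. -/
theorem bP_smul_ii (D : TwoData ρ A φ τ) (F : StForm (ρ φ) (tuP ρ τ) 2 (ε : R) f1 f2 b' g' Q Q') :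
    b' • ((ρ φ - ((ε : R) * ((2 : ℕ) : R)) • (1 : M2 R)) * (ρ τ - 1)) = 0 := by
  rw [F.sg_sub, N_eq F, F.conj_mul]
  refine conj_zero_aux ?_
  have h1 := f1bP F
  have h2 := bP_mul_n10 D F
  have h3 := bP_mul_n11 F
  ext i j
  fin_cases i <;> fin_cases j <;> simp [Matrix.vecMul, dotProduct, Fin.sum_univ_two]
  · linear_combination nM ρ τ Q Q' 0 0 * h1
  · linear_combination nM ρ τ Q Q' 0 1 * h1
  · linear_combination (f2 - (ε : R) * 2) * h2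
  · linear_combination (f2 - (ε : R) * 2) * h3

/-- (iii) `b' (ρ τ - 1)(ρ φ - ε) = 0`. -/
theorem bP_smul_iii (D : TwoData ρ A φ τ) (F : StForm (ρ φ) (tuP ρ τ) 2 (ε : R) f1 f2 b' g' Q Q') :
    b' • ((ρ τ - 1) * (ρ φ - (ε : R) • (1 : M2 R))) = 0 := by
  rw [F.sg_sub, N_eq F, F.conj_mul]
  refine conj_zero_aux ?_
  have h0 := bP_mul_n00 F
  have h1 := f2bP F
  have h2 := bP_mul_n10 D F
  ext i j
  fin_cases i <;> fin_cases j <;> simp [Matrix.mul_apply, Fin.sum_univ_two]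
  · linear_combination (f1 - (ε : R)) * h0
  · linear_combination nM ρ τ Q Q' 0 1 * h1
  · linear_combination (f1 - (ε : R)) * h2
  · linear_combination nM ρ τ Q Q' 1 1 * h1

/-- (iv) `b' (ρ φ - 2 ε)(ρ φ - ε) = 0`. -/
theorem bP_smul_iv (F : StForm (ρ φ) (tuP ρ τ) 2 (ε : R) f1 f2 b' g' Q Q') :
    b' • ((ρ φ - ((ε : R) * ((2 : ℕ) : R)) • (1 : M2 R)) * (ρ φ - (ε : R) • (1 : M2 R))) = 0 := by
  rw [F.sg_sub, F.sg_sub, F.conj_mul]
  refine conj_zero_aux ?_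
  have h1 := f1bP F
  have h2 := f2bP F
  ext i j
  fin_cases i <;> fin_cases j <;> simp [Matrix.mul_apply, Fin.sum_univ_two]
  · linear_combination (f1 - (ε : R)) * h1
  · linear_combination (f2 - (ε : R) * 2) * h2

end Form

/-! ### the action -/

section Act

variable {V : Type} [AddCommGroup V] [Module R V] [DistribMulAction GQ V]
  {Φ : M2 R →ₐ[R] Module.End R V} {ε : ℤ} {f1 f2 b' g' : R} {Q Q' : M2 R}

theorem z3_dvd_bP (F : StForm (ρ φ) (tuP ρ τ) 2 (ε : R) f1 f2 b' g' Q Q') : z3 ρ τ ∣ b' :=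
  ⟨_, (e01 F).symm⟩

/-- **(RS-out)** : `b' V` is of Steinberg type at `2`, with the sign `ε`. -/
theorem TwoData.locSt_smul (D : TwoData ρ A φ τ) (H : RhoAct ρ Φ) (hφ : A.IsFrobeniusAt φ 2)
    (F : StForm (ρ φ) (tuP ρ τ) 2 (ε : R) f1 f2 b' g' Q Q') {β : R} (hβ : b' ∣ β) :
    LocSt 2 ε (Set.range fun x : V => β • x) ∧ LocUnip 2 (Set.range fun x : V => β • x) := by
  have hU : LocUnip 2 (Set.range fun x : V => β • x) := by
    refine (D.locUnip H).mono ?_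
    rintro _ ⟨x, rfl⟩
    obtain ⟨d, rfl⟩ := (z3_dvd_bP F).trans hβ
    exact ⟨d • x, (mul_smul _ _ _).symm⟩
  refine ⟨?_, hU⟩
  have et : (ε : R) * ((2 : ℕ) : R) = ((ε * ((2 : ℕ) : ℤ) : ℤ) : R) := by push_cast; ring
  refine locSt_of_one_frob Nat.prime_two (range_smul_stable H β) A D.hA hφ
    (fun σ hσ σ' hσ' x hx => hU A D.hA σ hσ σ' hσ' x hx) ?_ ?_ ?_
  · rintro σ hσ _ ⟨x, rfl⟩
    obtain ⟨n, hn⟩ := D.gen σ hσ
    have h1 := phi_smul_eq_zero_of_dvd (Φ := Φ) hβ (smul_mul_pow_sub_one (bP_smul_ii D F) n) x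
    rw [← hn, StForm.phi_key H, sub_eq_zero, et, Int.cast_smul_eq_zsmul] at h1
    exact h1
  · rintro σ hσ _ ⟨x, rfl⟩
    obtain ⟨n, hn⟩ := D.gen σ hσ
    have h1 := phi_smul_eq_zero_of_dvd (Φ := Φ) hβ (smul_pow_sub_one_mul (bP_smul_iii D F) n) x
    have e1 : ρ τ ^ n - 1 = ρ σ - (1 : R) • (1 : M2 R) := by rw [hn, one_smul]
    rw [e1, H.phi_sub_mul_sub, one_smul, sub_eq_zero, Int.cast_smul_eq_zsmul] at h1
    exact h1
  · rintro _ ⟨x, rfl⟩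
    have h1 := phi_smul_eq_zero_of_dvd (Φ := Φ) hβ (bP_smul_iv F) x
    rw [H.phi_sub_mul_sub, sub_eq_zero, et, Int.cast_smul_eq_zsmul, Int.cast_smul_eq_zsmul] at h1
    exact h1

/-- the entries of a conjugate of a matrix which kills `G` lie in `Ann G`. -/
theorem conj_entry_mem (H : RhoAct ρ Φ) (hadj : Algebra.adjoin R (Set.range ρ) = ⊤)
    (G : Submodule R V) (hG : ∀ g : GQ, ∀ x ∈ G, g • x ∈ G) {X : M2 R}
    (hX : ∀ y ∈ G, Φ X y = 0) (P P' : M2 R) (i j : Fin 2) : (P' * X * P) i j ∈ G.annihilator :=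
  H.entry_mem_ann hadj G hG (fun y hy => by
    rw [map_mul, map_mul, Module.End.mul_apply, Module.End.mul_apply,
      hX _ (H.phi_mem hadj G hG P y hy), map_zero]) i j

theorem isUnit_f1_sub [IsLocalRing R] (hε : ε * ε = 1)
    (htr : (ρ φ).trace - (ε : R) * (((2 : ℕ) : R) + 1) ∈ IsLocalRing.maximalIdeal R)
    (F : StForm (ρ φ) (tuP ρ τ) 2 (ε : R) f1 f2 b' g' Q Q') : IsUnit (f1 - (ε : R)) := by
  have hεε : (ε : R) * (ε : R) = 1 := by exact_mod_cast congrArg (Int.cast : ℤ → R) hε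
  have hεu : IsUnit (ε : R) := IsUnit.of_mul_eq_one _ hεε
  rw [← IsLocalRing.notMem_maximalIdeal]
  intro h
  have hm : f1 - (ε : R) * ((2 : ℕ) : R) ∈ IsLocalRing.maximalIdeal R :=
    ((Ideal.span_singleton_le_iff_mem _).2 htr) F.m1
  have : (ε : R) ∈ IsLocalRing.maximalIdeal R := by
    have e : (ε : R) = (f1 - (ε : R)) - (f1 - (ε : R) * ((2 : ℕ) : R)) := by push_cast; ring
    rw [e]
    exact Ideal.sub_mem _ h hm
  exact (IsLocalRing.notMem_maximalIdeal.2 hεu) this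

/-- **(RS-in)** : on a cell of Steinberg type at `2` : `c₂`, `z₂` and three of the four entries of `ρ τ - 1` vanish. -/
theorem TwoData.ann_of_locSt [IsLocalRing R] (D : TwoData ρ A φ τ) (H : RhoAct ρ Φ)
    (hadj : Algebra.adjoin R (Set.range ρ) = ⊤) (hφ : A.IsFrobeniusAt φ 2)
    (hτ : τ ∈ A.inertiaSubgroupIn ℚ) (hε : ε * ε = 1)
    (htr : (ρ φ).trace - (ε : R) * (((2 : ℕ) : R) + 1) ∈ IsLocalRing.maximalIdeal R)
    (F : StForm (ρ φ) (tuP ρ τ) 2 (ε : R) f1 f2 b' g' Q Q')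
    (G : Submodule R V) (hG : ∀ g : GQ, ∀ x ∈ G, g • x ∈ G) (hSt : LocSt 2 ε (G : Set V))
    (hU : LocUnip 2 (G : Set V)) :
    (ρ φ).trace - (ε : R) * (((2 : ℕ) : R) + 1) ∈ G.annihilator ∧
      (ρ τ).trace - 2 ∈ G.annihilator ∧ nM ρ τ Q Q' 0 0 ∈ G.annihilator ∧
      nM ρ τ Q Q' 1 0 ∈ G.annihilator ∧ nM ρ τ Q Q' 1 1 ∈ G.annihilator := by
  have et : (ε : R) * ((2 : ℕ) : R) = ((ε * ((2 : ℕ) : ℤ) : ℤ) : R) := by push_cast; ring
  have hconj : ∀ X : M2 R, Q' * (Q * X * Q') * Q = X := fun X => by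
    calc Q' * (Q * X * Q') * Q = (Q' * Q) * X * (Q' * Q) := by simp only [mul_assoc]
      _ = X := by rw [F.Q'Q, one_mul, mul_one]
  -- `(ρ φ - 2 ε)(ρ τ - 1)` kills `G`
  have k1 : ∀ y ∈ G, Φ ((ρ φ - ((ε : R) * ((2 : ℕ) : R)) • (1 : M2 R)) * (ρ τ - 1)) y = 0 := by
    intro y hy
    rw [StForm.phi_key H, et, Int.cast_smul_eq_zsmul, (hSt A D.hA φ hφ τ hτ y hy).1, sub_self]
  have k2 : ∀ y ∈ G, Φ ((ρ τ - 1) * (ρ φ - (ε : R) • (1 : M2 R))) y = 0 := by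
    intro y hy
    have e1 : ρ τ - 1 = ρ τ - (1 : R) • (1 : M2 R) := by rw [one_smul]
    rw [e1, H.phi_sub_mul_sub, one_smul, Int.cast_smul_eq_zsmul,
      (hSt A D.hA φ hφ τ hτ y hy).2.1, sub_self]
  have m1 := conj_entry_mem H hadj G hG k1 Q Q'
  have m2 := conj_entry_mem H hadj G hG k2 Q Q'
  rw [F.sg_sub, N_eq F, F.conj_mul, hconj] at m1 m2
  refine ⟨?_, ?_, ?_, ?_, ?_⟩
  · refine Submodule.mem_annihilator.2 fun y hy => ?_
    have h3 := (hSt A D.hA φ hφ τ hτ y hy).2.2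
    have h4 : φ⁻¹ • (φ • (φ • y - ε • y)) = φ⁻¹ • ((ε * ((2 : ℕ) : ℤ)) • (φ • y - ε • y)) := by
      rw [h3]
    rw [inv_smul_smul, smul_comm φ⁻¹, smul_sub, inv_smul_smul, smul_comm φ⁻¹] at h4
    have e3 : (ε : R) * (((2 : ℕ) : R) + 1) = ((ε * 3 : ℤ) : R) := by push_cast; ring
    rw [sub_smul, H.trace_smul, D.detP, e3, Int.cast_smul_eq_zsmul, ofNat_smul_eq_nsmul R 2]
    generalize φ⁻¹ • y = w at h4 ⊢
    generalize φ • y = u at h4 ⊢
    have e5 : (ε * ((2 : ℕ) : ℤ)) • (y - ε • w) = (ε * 2) • y - (2 : ℕ) • w := by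
      rw [smul_sub, smul_smul]
      have : ε * ((2 : ℕ) : ℤ) * ε = ((2 : ℕ) : ℤ) := by push_cast; linear_combination 2 * hε
      rw [this, natCast_zsmul]
      norm_num
    rw [e5] at h4
    have : u + (2 : ℕ) • w - (ε * 3) • y = (u - ε • y) - ((ε * 2) • y - (2 : ℕ) • w) := by
      have : (ε * 3) • y = ε • y + (ε * 2) • y := by rw [← add_smul]; congr 1; ring
      rw [this]; abel
    rw [this, h4, sub_self]
  · refine Submodule.mem_annihilator.2 fun y hy => ?_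
    have h := D.z3_smul_eq H (hU A D.hA τ hτ τ hτ y hy)
    have e : (ρ τ).trace - 2 = z3 ρ τ - ((3 : ℕ) : R) := by rw [z3]; push_cast; ring
    rw [e, sub_smul, h, Nat.cast_smul_eq_nsmul, sub_self]
  · have h := m2 0 0
    simp only [Matrix.mul_apply, Fin.sum_univ_two, Matrix.of_apply, Matrix.cons_val_zero,
      Matrix.cons_val_one, Matrix.cons_val', Matrix.cons_val_fin_one, mul_zero, add_zero] at h
    exact (Ideal.mul_unit_mem_iff_mem _ (isUnit_f1_sub hε htr F)).1 h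
  · have h := m1 1 0
    simp only [Matrix.mul_apply, Fin.sum_univ_two, Matrix.of_apply, Matrix.cons_val_zero,
      Matrix.cons_val_one, Matrix.cons_val', Matrix.cons_val_fin_one, zero_mul, zero_add] at h
    exact (Ideal.unit_mul_mem_iff_mem _ F.u2).1 h
  · have h := m1 1 1
    simp only [Matrix.mul_apply, Fin.sum_univ_two, Matrix.of_apply, Matrix.cons_val_zero,
      Matrix.cons_val_one, Matrix.cons_val', Matrix.cons_val_fin_one, zero_mul, zero_add] at h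
    exact (Ideal.unit_mul_mem_iff_mem _ F.u2).1 h

omit [DistribMulAction GQ V] in
/-- the entries of `nM` lie in every ideal which contains the entries of `ρ τ - 1`  (so `π0 b = 0` when `rbar0 τ = 1`). -/
theorem nM_mem (J : Ideal R) (h : ∀ i j, (ρ τ - 1) i j ∈ J) (Q Q' : M2 R) (i j : Fin 2) :
    nM ρ τ Q Q' i j ∈ J := by
  rw [nM, Matrix.mul_apply]
  refine J.sum_mem fun k _ => J.mul_mem_right _ ?_
  rw [Matrix.mul_apply]
  exact J.sum_mem fun l _ => J.mul_mem_left _ (h l k)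

/-- **(VALUE)** : `b x = c x`, `τ` unipotent on `x` ⟹ `b' x = 3 c x`. -/
theorem TwoData.bP_smul_eq (D : TwoData ρ A φ τ) (H : RhoAct ρ Φ)
    (F : StForm (ρ φ) (tuP ρ τ) 2 (ε : R) f1 f2 b' g' Q Q') {x : V}
    (hx : τ • (τ • x - x) = τ • x - x) (c : ℤ) (hb : nM ρ τ Q Q' 0 1 • x = c • x) :
    b' • x = (3 * c) • x := by
  rw [← e01 F, mul_comm, mul_smul, D.z3_smul_eq H hx, smul_comm, hb, mul_smul,
    ← natCast_zsmul]
  norm_num

end Act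

/-! ### `strict` -/

section Strict

variable {p : ℕ} [Fact p.Prime] {V : Type} [AddCommGroup V] [Module R V] [DistribMulAction GQ V]
  {Φ : M2 R →ₐ[R] Module.End R V} {ε : ℤ} {f1 f2 b' g' : R} {Q Q' : M2 R}

/-- **(STRICT)** at `2 ∈ P` : modulo `Ann G ⊔ I`, `I ∋ b = nM 0 1`, the restriction of `ρ` to `D_2` is constant. -/
theorem TwoData.strict_raised [IsLocalRing R] {v : Nat.Primes} (hv : (v : ℕ) = 2)
    (D : TwoData ρ (primeLocalPlace v) φ τ) (H : RhoAct ρ Φ)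
    (hadj : Algebra.adjoin R (Set.range ρ) = ⊤) (hcont : GaloisFactorsThroughFiniteLevel ρ)
    (hφ : (primeLocalPlace v).IsFrobeniusAt φ 2) (hτ : τ ∈ inert v) (hε : ε * ε = 1)
    (htr : (ρ φ).trace - (ε : R) * (((2 : ℕ) : R) + 1) ∈ IsLocalRing.maximalIdeal R)
    (F : StForm (ρ φ) (tuP ρ τ) 2 (ε : R) f1 f2 b' g' Q Q')
    (N : ℕ) (hN : Nat.Coprime N (v : ℕ)) (htors : ∀ σ ∈ inert v, ρ σ ^ N = 1)
    (G : Submodule R V) (hG : ∀ g : GQ, ∀ x ∈ G, g • x ∈ G) (hSt : LocSt 2 ε (G : Set V))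
    (hU : LocUnip 2 (G : Set V)) (I : Ideal R) (hb : nM ρ τ Q Q' 0 1 ∈ G.annihilator ⊔ I)
    (π0 : R →+* ZMod p) :
    ∃ M : M2 R, IsUnit (M.map π0) ∧ ∀ σ ∈ decomp v, ConjConst ℤ (G.annihilator ⊔ I) M (ρ σ) := by
  obtain ⟨hc, -, h00, h10, h11⟩ := D.ann_of_locSt H hadj hφ hτ hε htr F G hG hSt hU
  refine ⟨Q', F.isUnit_map π0, ?_⟩
  have hT : ConjConst ℤ (G.annihilator ⊔ I) Q' (ρ τ) := by
    refine ⟨1, ?_⟩
    have e2 : (1 : M2 ℤ).map (algebraMap ℤ R) = 1 := map_one (algebraMap ℤ R).mapMatrix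
    have e1 : Q' * ρ τ - 1 * Q' = nM ρ τ Q Q' * Q' := by
      rw [one_mul, nM, mul_assoc, mul_assoc, F.QQ', mul_one, mul_sub, mul_one]
    rw [e2, e1]
    refine mul_entries_mem _ _ _ fun i k => ?_
    fin_cases i <;> fin_cases k
    · exact Ideal.mem_sup_left h00
    · exact hb
    · exact Ideal.mem_sup_left h10
    · exact Ideal.mem_sup_left h11
  refine conjConst_of_gens hcont v N hN htors (fun σ hσ => ?_) (by rw [hv]; exact hφ)
    (F.conjConst_frob _ (Ideal.mem_sup_left hc))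
  obtain ⟨n, hn⟩ := D.gen σ hσ
  rw [hn]
  exact hT.pow n

end Strict

end Fermat.Agent.ML.At2.Loc
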